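import Fermat.Agent.LT.Adelic.FinAdele
import Mathlib.RingTheory.DedekindDomain.Factorization
import Mathlib.RingTheory.ClassGroup.Basic

/-!
# Finite ideles modulo principal ones and local units

There are finitely many finite ideles `t_c` with `𝔸_f^× = K^× {t_c} Ô^×`.
-/

set_option autoImplicit false
set_option maxHeartbeats 400000

noncomputable section

namespace Fermat.Agent.LT.Adelic

open IsDedekindDomain IsDedekindDomain.HeightOneSpectrum WithZero
open scoped nonZeroDivisors

variable {R : Type*} [CommRing R] [IsDedekindDomain R] {K : Type*} [Field K] [Algebra R K]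
  [IsFractionRing R K]

theorem valued_unit_ne_zero (t : (FiniteAdeleRing R K)ˣ) (v : HeightOneSpectrum R) :
    Valued.v ((t : FiniteAdeleRing R K) v) ≠ 0 := fun h => by
  have := congrArg (fun a : FiniteAdeleRing R K => Valued.v (a v)) t.mul_inv
  simp only [coe_apply_mul, map_mul, h, zero_mul, coe_apply_one, map_one] at this
  exact zero_ne_one this

/-- The exponent of `v` in the ideal of an idele. -/
def ordAt (t : (FiniteAdeleRing R K)ˣ) (v : HeightOneSpectrum R) : ℤ :=
  -log (Valued.v ((t : FiniteAdeleRing R K) v))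

theorem valued_eq_exp_ordAt (t : (FiniteAdeleRing R K)ˣ) (v : HeightOneSpectrum R) :
    Valued.v ((t : FiniteAdeleRing R K) v) = exp (-ordAt t v) := by
  rw [ordAt, neg_neg, exp_log (valued_unit_ne_zero t v)]

theorem ordAt_mul (s t : (FiniteAdeleRing R K)ˣ) (v : HeightOneSpectrum R) :
    ordAt (s * t) v = ordAt s v + ordAt t v := by
  rw [ordAt, Units.val_mul, coe_apply_mul, map_mul,
    log_mul (valued_unit_ne_zero s v) (valued_unit_ne_zero t v), ordAt, ordAt]
  omega

theorem ordAt_eventually_zero (t : (FiniteAdeleRing R K)ˣ) :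
    ∀ᶠ v : HeightOneSpectrum R in Filter.cofinite, ordAt t v = 0 := by
  filter_upwards [(FiniteAdeleRing.isUnit_iff.mp t.isUnit).2] with v hv
  rw [ordAt, hv, log_one, neg_zero]

/-- The fractional ideal of an idele. -/
def ideleIdeal (t : (FiniteAdeleRing R K)ˣ) : FractionalIdeal R⁰ K :=
  ∏ᶠ v : HeightOneSpectrum R, (v.asIdeal : FractionalIdeal R⁰ K) ^ ordAt t v

theorem count_ideleIdeal (t : (FiniteAdeleRing R K)ˣ) (v : HeightOneSpectrum R) :
    FractionalIdeal.count K v (ideleIdeal t) = ordAt t v :=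
  FractionalIdeal.count_finprod K v _ (ordAt_eventually_zero t)

theorem ideleIdeal_ne_zero (t : (FiniteAdeleRing R K)ˣ) : ideleIdeal t ≠ 0 := by
  rw [ideleIdeal]
  exact finprod_induction (fun I : FractionalIdeal R⁰ K => I ≠ 0) one_ne_zero
    (fun _ _ hx hy => mul_ne_zero hx hy)
    (fun v => zpow_ne_zero _ (FractionalIdeal.coeIdeal_ne_zero.mpr v.ne_bot))

/-- The ideal class of an idele. -/
def ideleClass (t : (FiniteAdeleRing R K)ˣ) : ClassGroup R :=
  ClassGroup.mk K (Units.mk0 (ideleIdeal t) (ideleIdeal_ne_zero t))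

theorem count_spanSingleton_eq (v : HeightOneSpectrum R) {x : K} (hx : x ≠ 0) :
    v.valuation K x = exp (-FractionalIdeal.count K v (FractionalIdeal.spanSingleton R⁰ x)) := by
  obtain ⟨a, b, hb, rfl⟩ := IsFractionRing.div_surjective (A := R) x
  have hb0 : b ≠ 0 := nonZeroDivisors.ne_zero hb
  have ha0 : a ≠ 0 := by rintro rfl; simp at hx
  have key : ∀ r : R, r ≠ 0 → v.valuation K (algebraMap R K r) =
      exp (-FractionalIdeal.count K v (FractionalIdeal.spanSingleton R⁰ (algebraMap R K r))) := by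
    intro r hr
    rw [valuation_of_algebraMap, intValuation_if_neg v hr, ← FractionalIdeal.coeIdeal_span_singleton,
      FractionalIdeal.count_coe K v (by simpa using hr)]
  have hne : ∀ r : R, r ≠ 0 → FractionalIdeal.spanSingleton R⁰ (algebraMap R K r) ≠ 0 := fun r hr => by
    rw [FractionalIdeal.spanSingleton_ne_zero_iff]
    exact (map_ne_zero_iff _ (IsFractionRing.injective R K)).mpr hr
  rw [map_div₀, key a ha0, key b hb0, ← exp_sub, div_eq_mul_inv,
    ← FractionalIdeal.spanSingleton_mul_spanSingleton, ← FractionalIdeal.spanSingleton_inv,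
    FractionalIdeal.count_mul K v (hne a ha0) (inv_ne_zero (hne b hb0)), FractionalIdeal.count_inv]
  congr 1
  omega

/-- A unit of the finite adeles from an element of `Kˣ`. -/
abbrev principalIdele (x : Kˣ) : (FiniteAdeleRing R K)ˣ := FiniteAdeleRing.unitEmbedding R K x

theorem ordAt_principalIdele (x : Kˣ) (v : HeightOneSpectrum R) :
    ordAt (principalIdele x : (FiniteAdeleRing R K)ˣ) v =
      FractionalIdeal.count K v (FractionalIdeal.spanSingleton R⁰ (x : K)) := by
  rw [ordAt, show ((principalIdele x : (FiniteAdeleRing R K)ˣ) : FiniteAdeleRing R K) =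
    algebraMap K _ (x : K) from rfl, valued_algebraMap, count_spanSingleton_eq v x.ne_zero, log_exp,
    neg_neg]

theorem exists_principal_of_ideleClass_eq {s t : (FiniteAdeleRing R K)ˣ}
    (h : ideleClass s = ideleClass t) :
    ∃ x : Kˣ, ∀ v, ordAt t v = ordAt (principalIdele x * s : (FiniteAdeleRing R K)ˣ) v := by
  have h1 : ClassGroup.mk K (Units.mk0 (ideleIdeal t) (ideleIdeal_ne_zero t) *
      (Units.mk0 (ideleIdeal s) (ideleIdeal_ne_zero s))⁻¹) = 1 := by
    rw [map_mul, map_inv]
    exact mul_inv_eq_one.mpr h.symm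
  rw [ClassGroup.mk_eq_one_iff] at h1
  obtain ⟨x, hx⟩ := (FractionalIdeal.isPrincipal_iff _).mp h1
  rw [Units.val_mul, Units.val_inv_eq_inv_val, Units.val_mk0, Units.val_mk0] at hx
  have hne : ideleIdeal t * (ideleIdeal s)⁻¹ ≠ 0 :=
    mul_ne_zero (ideleIdeal_ne_zero t) (inv_ne_zero (ideleIdeal_ne_zero s))
  have hx0 : x ≠ 0 := by
    rintro rfl
    rw [FractionalIdeal.spanSingleton_zero] at hx
    exact hne hx
  refine ⟨Units.mk0 x hx0, fun v => ?_⟩
  rw [ordAt_mul, ordAt_principalIdele, Units.val_mk0, ← hx,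
    FractionalIdeal.count_mul K v (ideleIdeal_ne_zero t) (inv_ne_zero (ideleIdeal_ne_zero s)),
    FractionalIdeal.count_inv, count_ideleIdeal, count_ideleIdeal]
  omega

/-- `u` is a unit at every place. -/
def IsUnitIdele (u : (FiniteAdeleRing R K)ˣ) : Prop :=
  ∀ v, Valued.v ((u : FiniteAdeleRing R K) v) = 1

theorem IsUnitIdele.inv {u : (FiniteAdeleRing R K)ˣ} (h : IsUnitIdele u) : IsUnitIdele u⁻¹ := by
  intro v
  have := congrArg (fun a : FiniteAdeleRing R K => Valued.v (a v)) u.mul_inv
  simpa only [coe_apply_mul, map_mul, h v, one_mul, coe_apply_one, map_one] using this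

variable (R K) in
/-- Finitely many ideles represent `𝔸_f^× / K^× Ô^×`. -/
theorem exists_finite_idele_reps [Fintype (ClassGroup R)] :
    ∃ T : Set (FiniteAdeleRing R K)ˣ, T.Finite ∧ ∀ t : (FiniteAdeleRing R K)ˣ,
      ∃ s ∈ T, ∃ x : Kˣ, ∃ u : (FiniteAdeleRing R K)ˣ, IsUnitIdele u ∧
        t = principalIdele x * s * u := by
  classical
  let rep : ClassGroup R → (FiniteAdeleRing R K)ˣ := fun c =>
    if h : ∃ t : (FiniteAdeleRing R K)ˣ, ideleClass t = c then h.choose else 1
  refine ⟨Set.range rep, Set.finite_range rep, fun t => ⟨rep (ideleClass t), ⟨_, rfl⟩, ?_⟩⟩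
  have hc : ideleClass (rep (ideleClass t)) = ideleClass t := by
    have h : ∃ t' : (FiniteAdeleRing R K)ˣ, ideleClass t' = ideleClass t := ⟨t, rfl⟩
    simp only [rep, dif_pos h]
    exact h.choose_spec
  obtain ⟨x, hx⟩ := exists_principal_of_ideleClass_eq hc
  set s := rep (ideleClass t)
  refine ⟨x, (principalIdele x * s)⁻¹ * t, fun v => ?_, by rw [mul_inv_cancel_left]⟩
  have h0 : ordAt ((principalIdele x * s)⁻¹ * t) v = 0 := by
    have h1 := ordAt_mul (principalIdele x * s) ((principalIdele x * s)⁻¹ * t) v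
    rw [mul_inv_cancel_left] at h1
    have := hx v
    omega
  rw [valued_eq_exp_ordAt, h0, neg_zero, exp_zero]

end Fermat.Agent.LT.Adelic

end
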