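import Mathlib.LinearAlgebra.Matrix.GeneralLinearGroup.Defs
import Mathlib.LinearAlgebra.Matrix.Adjugate
import Mathlib.LinearAlgebra.Matrix.ConjTranspose
import Mathlib.MeasureTheory.Measure.Lebesgue.Complex
import Mathlib.MeasureTheory.Constructions.BorelSpace.Complex
import Mathlib.MeasureTheory.Measure.WithDensity

/-!
# Hyperbolic three space with the action of `GL₂(ℂ)`

A point `(z, r)` corresponds to the hermitian matrix `r⁻¹ [[|z|²+r², z], [z̄, 1]]`; `g` acts by
`P ↦ g P gᴴ / |det g|`.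
-/

set_option autoImplicit false
set_option maxHeartbeats 400000

noncomputable section

namespace Fermat.Agent.LT.Adelic

open Matrix Complex ComplexConjugate

/-- Hyperbolic three space as the upper half space. -/
@[ext] structure HSpace where
  /-- the horizontal coordinate -/
  z : ℂ
  /-- the height -/
  r : ℝ
  r_pos : 0 < r

namespace HSpace

/-- The base point `(0, 1)`. -/
def base : HSpace := ⟨0, 1, one_pos⟩

/-- The hermitian matrix of a point. -/
def herm (p : HSpace) : Matrix (Fin 2) (Fin 2) ℂ :=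
  (p.r : ℂ)⁻¹ • !![p.z * conj p.z + (p.r : ℂ) ^ 2, p.z; conj p.z, 1]

theorem herm_injective : Function.Injective herm := by
  intro p q h
  have h11 := congrFun (congrFun h 1) 1
  have h01 := congrFun (congrFun h 0) 1
  simp [herm] at h11 h01
  have hr : p.r = q.r := by exact_mod_cast h11
  have hq : (q.r : ℂ) ≠ 0 := ofReal_ne_zero.mpr q.r_pos.ne'
  rw [hr] at h01
  exact HSpace.ext (mul_left_cancel₀ (inv_ne_zero hq) (by simpa using h01)) hr

theorem det_herm (p : HSpace) : p.herm.det = 1 := by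
  have hr : (p.r : ℂ) ≠ 0 := ofReal_ne_zero.mpr p.r_pos.ne'
  rw [herm, det_smul, det_fin_two_of, Fintype.card_fin]
  field_simp
  ring

/-- The squared norm of the bottom row, transformed: `|cz+d|² + |c|² r²`. -/
def denSq (g : GL (Fin 2) ℂ) (p : HSpace) : ℝ :=
  normSq ((g : Matrix (Fin 2) (Fin 2) ℂ) 1 0 * p.z + (g : Matrix (Fin 2) (Fin 2) ℂ) 1 1) +
    normSq ((g : Matrix (Fin 2) (Fin 2) ℂ) 1 0) * p.r ^ 2

theorem denSq_pos (g : GL (Fin 2) ℂ) (p : HSpace) : 0 < denSq g p := by
  rw [denSq]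
  by_cases hc : (g : Matrix (Fin 2) (Fin 2) ℂ) 1 0 = 0
  · have hd : (g : Matrix (Fin 2) (Fin 2) ℂ) 1 1 ≠ 0 := fun hd => by
      have hdet := (Matrix.isUnits_det_units g).ne_zero
      exact hdet (by rw [det_fin_two, hc, hd]; ring)
    simp [hc, normSq_pos.mpr hd]
  · exact add_pos_of_nonneg_of_pos (normSq_nonneg _)
      (mul_pos (normSq_pos.mpr hc) (pow_pos p.r_pos 2))

/-- The absolute value of the determinant. -/
def absDet (g : GL (Fin 2) ℂ) : ℝ := ‖(g : Matrix (Fin 2) (Fin 2) ℂ).det‖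

theorem absDet_pos (g : GL (Fin 2) ℂ) : 0 < absDet g :=
  norm_pos_iff.mpr (Matrix.isUnits_det_units g).ne_zero

instance : SMul (GL (Fin 2) ℂ) HSpace where
  smul g p :=
    { z := (((g : Matrix (Fin 2) (Fin 2) ℂ) 0 0 * p.z + (g : Matrix (Fin 2) (Fin 2) ℂ) 0 1) *
          conj ((g : Matrix (Fin 2) (Fin 2) ℂ) 1 0 * p.z + (g : Matrix (Fin 2) (Fin 2) ℂ) 1 1) +
          (g : Matrix (Fin 2) (Fin 2) ℂ) 0 0 * conj ((g : Matrix (Fin 2) (Fin 2) ℂ) 1 0) *
            (p.r : ℂ) ^ 2) / (denSq g p : ℂ)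
      r := absDet g * p.r / denSq g p
      r_pos := div_pos (mul_pos (absDet_pos g) p.r_pos) (denSq_pos g p) }

theorem smul_r (g : GL (Fin 2) ℂ) (p : HSpace) : (g • p).r = absDet g * p.r / denSq g p := rfl

theorem smul_z (g : GL (Fin 2) ℂ) (p : HSpace) :
    (g • p).z = (((g : Matrix (Fin 2) (Fin 2) ℂ) 0 0 * p.z + (g : Matrix (Fin 2) (Fin 2) ℂ) 0 1) *
      conj ((g : Matrix (Fin 2) (Fin 2) ℂ) 1 0 * p.z + (g : Matrix (Fin 2) (Fin 2) ℂ) 1 1) +
      (g : Matrix (Fin 2) (Fin 2) ℂ) 0 0 * conj ((g : Matrix (Fin 2) (Fin 2) ℂ) 1 0) *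
        (p.r : ℂ) ^ 2) / (denSq g p : ℂ) := rfl

theorem eta_mat (M : Matrix (Fin 2) (Fin 2) ℂ) : M = !![M 0 0, M 0 1; M 1 0, M 1 1] := by
  ext i j; fin_cases i <;> fin_cases j <;> rfl

theorem herm_smul_identity {a b c d z w : ℂ} {r n : ℂ} (hn : n ≠ 0)
    (hD : (c * z + d) * conj (c * z + d) + c * conj c * r ^ 2 ≠ 0)
    (hn2 : n * n = (a * d - b * c) * conj (a * d - b * c))
    (hw : w = ((a * z + b) * conj (c * z + d) + a * conj c * r ^ 2) /
      ((c * z + d) * conj (c * z + d) + c * conj c * r ^ 2))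
    (hr : r ≠ 0) (hrc : conj r = r) :
    (n * r / ((c * z + d) * conj (c * z + d) + c * conj c * r ^ 2))⁻¹ •
        !![w * conj w + (n * r / ((c * z + d) * conj (c * z + d) + c * conj c * r ^ 2)) ^ 2, w;
          conj w, 1] =
      (n⁻¹ * r⁻¹) • (!![a, b; c, d] * !![z * conj z + r ^ 2, z; conj z, 1] *
        (!![a, b; c, d])ᴴ) := by
  set A := a * z + b with hA
  set B := c * z + d with hB
  have key : (A * conj B + a * conj c * r ^ 2) * (conj A * B + conj a * c * r ^ 2) + n * n * r ^ 2 =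
      (B * conj B + c * conj c * r ^ 2) * (A * conj A + a * conj a * r ^ 2) := by
    rw [hn2, hA, hB]
    simp only [map_add, map_sub, map_mul]
    ring
  have hcw : conj w = (conj A * B + conj a * c * r ^ 2) /
      (B * conj B + c * conj c * r ^ 2) := by
    subst hw
    simp only [map_div₀, map_add, map_mul, map_pow, conj_conj, hrc]
    ring
  have hM : !![a, b; c, d] * !![z * conj z + r ^ 2, z; conj z, 1] * (!![a, b; c, d])ᴴ =
      !![A * conj A + a * conj a * r ^ 2, A * conj B + a * conj c * r ^ 2;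
        conj A * B + conj a * c * r ^ 2, B * conj B + c * conj c * r ^ 2] := by
    ext i j
    fin_cases i <;> fin_cases j <;>
      simp [Matrix.mul_apply, Fin.sum_univ_two, hA, hB, map_add, map_mul] <;> ring
  rw [hM, hcw, hw]
  generalize hDd : B * conj B + c * conj c * r ^ 2 = D at hD key
  generalize A * conj B + a * conj c * r ^ 2 = u at key
  generalize conj A * B + conj a * c * r ^ 2 = u' at key
  generalize A * conj A + a * conj a * r ^ 2 = T at key
  ext i j
  fin_cases i <;> fin_cases j <;> simp <;> field_simp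
  linear_combination key

/-- The action in terms of hermitian matrices. -/
theorem herm_smul (g : GL (Fin 2) ℂ) (p : HSpace) :
    (g • p).herm = (absDet g : ℂ)⁻¹ • ((g : Matrix (Fin 2) (Fin 2) ℂ) * p.herm *
      (g : Matrix (Fin 2) (Fin 2) ℂ)ᴴ) := by
  have hden := denSq_pos g p
  have habs := absDet_pos g
  have h2 : (absDet g : ℂ) * (absDet g : ℂ) = (g : Matrix (Fin 2) (Fin 2) ℂ).det *
      conj (g : Matrix (Fin 2) (Fin 2) ℂ).det := by
    rw [Complex.mul_conj', absDet, sq]
  rw [det_fin_two] at h2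
  obtain ⟨a, ha⟩ : ∃ a, (g : Matrix (Fin 2) (Fin 2) ℂ) 0 0 = a := ⟨_, rfl⟩
  obtain ⟨b, hb⟩ : ∃ b, (g : Matrix (Fin 2) (Fin 2) ℂ) 0 1 = b := ⟨_, rfl⟩
  obtain ⟨c, hc⟩ : ∃ c, (g : Matrix (Fin 2) (Fin 2) ℂ) 1 0 = c := ⟨_, rfl⟩
  obtain ⟨d, hd⟩ : ∃ d, (g : Matrix (Fin 2) (Fin 2) ℂ) 1 1 = d := ⟨_, rfl⟩
  have hg : (g : Matrix (Fin 2) (Fin 2) ℂ) = !![a, b; c, d] := by
    rw [← ha, ← hb, ← hc, ← hd]; exact eta_mat _
  rw [ha, hb, hc, hd] at h2
  have hD : ((denSq g p : ℝ) : ℂ) = (c * p.z + d) * conj (c * p.z + d) + c * conj c * (p.r : ℂ) ^ 2 := by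
    rw [denSq, hc, hd, ofReal_add, ofReal_mul, ofReal_pow, Complex.mul_conj, Complex.mul_conj]
  have key := herm_smul_identity (a := a) (b := b) (c := c) (d := d) (z := p.z) (w := (g • p).z)
    (r := (p.r : ℂ)) (n := (absDet g : ℂ)) (ofReal_ne_zero.mpr habs.ne')
    (by rw [← hD]; exact ofReal_ne_zero.mpr hden.ne') h2
    (by rw [smul_z, ha, hb, hc, hd, hD]) (ofReal_ne_zero.mpr p.r_pos.ne') (conj_ofReal _)
  rw [← hD] at key
  rw [hg, herm, herm, smul_r, ofReal_div, ofReal_mul, key, mul_smul_comm, smul_mul_assoc, smul_smul]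

instance : MulAction (GL (Fin 2) ℂ) HSpace where
  one_smul p := herm_injective <| by
    rw [herm_smul, Units.val_one, absDet, Units.val_one, det_one, norm_one, ofReal_one, inv_one,
      one_smul, one_mul, conjTranspose_one, mul_one]
  mul_smul g h p := herm_injective <| by
    rw [herm_smul, herm_smul, herm_smul, Units.val_mul, absDet, absDet, absDet, Units.val_mul,
      det_mul, norm_mul, ofReal_mul, conjTranspose_mul, mul_smul_comm, smul_mul_assoc, smul_smul,
      mul_inv, mul_comm (((‖(g : Matrix (Fin 2) (Fin 2) ℂ).det‖ : ℝ) : ℂ))⁻¹]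
    simp only [Matrix.mul_assoc]

/-- `cosh` of the hyperbolic distance. -/
def coshDist (p q : HSpace) : ℝ :=
  (normSq (p.z - q.z) + p.r ^ 2 + q.r ^ 2) / (2 * p.r * q.r)

theorem coshDist_eq_trace (p q : HSpace) :
    (coshDist p q : ℂ) = (adjugate p.herm * q.herm).trace / 2 := by
  have hp : (p.r : ℂ) ≠ 0 := ofReal_ne_zero.mpr p.r_pos.ne'
  have hq : (q.r : ℂ) ≠ 0 := ofReal_ne_zero.mpr q.r_pos.ne'
  rw [coshDist, Matrix.trace_fin_two, herm, herm, adjugate_fin_two]
  simp [Matrix.mul_apply, Fin.sum_univ_two, ← Complex.mul_conj]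
  field_simp
  ring

theorem coshDist_comm (p q : HSpace) : coshDist p q = coshDist q p := by
  rw [coshDist, coshDist, ← normSq_neg (p.z - q.z), neg_sub]
  ring

theorem coshDist_smul (g : GL (Fin 2) ℂ) (p q : HSpace) :
    coshDist (g • p) (g • q) = coshDist p q := by
  apply ofReal_injective
  rw [coshDist_eq_trace, coshDist_eq_trace, herm_smul, herm_smul]
  set G := (g : Matrix (Fin 2) (Fin 2) ℂ) with hG
  have habs : (absDet g : ℂ) ≠ 0 := ofReal_ne_zero.mpr (absDet_pos g).ne'
  have h2 : (absDet g : ℂ) * (absDet g : ℂ) = G.det * conj G.det := by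
    rw [Complex.mul_conj', absDet, sq]
  rw [adjugate_smul, Fintype.card_fin, smul_mul_assoc, mul_smul_comm, smul_smul,
    adjugate_mul_distrib, adjugate_mul_distrib]
  have e : adjugate Gᴴ * (adjugate p.herm * adjugate G) * (G * q.herm * Gᴴ) =
      G.det • (adjugate Gᴴ * (adjugate p.herm * q.herm) * Gᴴ) := by
    rw [show adjugate Gᴴ * (adjugate p.herm * adjugate G) * (G * q.herm * Gᴴ) =
      adjugate Gᴴ * (adjugate p.herm * (adjugate G * G) * q.herm) * Gᴴ by
        simp only [Matrix.mul_assoc], adjugate_mul]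
    simp only [mul_smul_comm, smul_mul_assoc, mul_one]
  rw [e, trace_smul, trace_smul, Matrix.trace_mul_comm, ← Matrix.mul_assoc, mul_adjugate,
    det_conjTranspose, smul_one_mul, trace_smul]
  simp only [smul_eq_mul, pow_one, show (2 : ℕ) - 1 = 1 from rfl]
  rw [← mul_assoc, ← mul_assoc, show (absDet g : ℂ)⁻¹ * (absDet g : ℂ)⁻¹ * G.det * star G.det = 1 by
    rw [show star G.det = conj G.det from rfl, mul_assoc, ← h2]; field_simp, one_mul]

/-- Coordinates. -/
def coords (p : HSpace) : ℂ × ℝ := (p.z, p.r)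

theorem coords_injective : Function.Injective coords := fun p q h =>
  HSpace.ext (congrArg Prod.fst h) (congrArg Prod.snd h)

theorem range_coords : Set.range coords = {x : ℂ × ℝ | 0 < x.2} := by
  ext x
  exact ⟨by rintro ⟨p, rfl⟩; exact p.r_pos, fun h => ⟨⟨x.1, x.2, h⟩, rfl⟩⟩

instance : TopologicalSpace HSpace := .induced coords inferInstance

instance : MeasurableSpace HSpace := .comap coords inferInstance

theorem isOpenEmbedding_coords : Topology.IsOpenEmbedding coords where
  eq_induced := rfl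
  injective := coords_injective
  isOpen_range := range_coords ▸ isOpen_lt continuous_const continuous_snd

theorem measurableEmbedding_coords : MeasurableEmbedding coords where
  injective := coords_injective
  measurable := comap_measurable _
  measurableSet_image' := by
    rintro _ ⟨t, ht, rfl⟩
    rw [Set.image_preimage_eq_inter_range]
    exact ht.inter isOpenEmbedding_coords.isOpen_range.measurableSet

/-- The invariant measure `dz dr / r³`. -/
def measure : MeasureTheory.Measure HSpace :=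
  (MeasureTheory.volume.withDensity fun x : ℂ × ℝ => ENNReal.ofReal ((x.2 ^ 3)⁻¹)).comap coords

end HSpace

end Fermat.Agent.LT.Adelic

end
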