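import Fermat.Agent.LT.Adelic.Levels
import Fermat.Agent.LT.Adelic.Hyperbolic
import Mathlib.NumberTheory.NumberField.InfinitePlace.Basic

/-!
# Spherical automorphic functions for `GL₂` over a totally complex number field

For a number field `K` with chosen embeddings `emb : ι → (K →+* ℂ)` and a level `U`, the space is
`(ι → HSpace) × Yf U` with the diagonal action of `GL₂(K)`; automorphic functions are the
invariant functions.  Hecke operators act on the discrete factor.
-/

set_option autoImplicit false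
set_option maxHeartbeats 400000

noncomputable section

namespace Fermat.Agent.LT.Adelic

open IsDedekindDomain NumberField Matrix MeasureTheory

variable (K : Type*) [Field K] [NumberField K]

/-- `GL₂` of the finite adeles of the number field `K`. -/
abbrev GfK : Type _ := Gf (𝓞 K) K

/-- A frame: one complex embedding for each infinite place, all of them complex. -/
structure Frame (ι : Type*) where
  /-- the chosen embedding at each place -/
  emb : ι → K →+* ℂ
  bij : Function.Bijective fun i => InfinitePlace.mk (emb i)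
  complex : ∀ i, (InfinitePlace.mk (emb i)).IsComplex

variable {K} {ι : Type*}

/-- The map of `GL₂(K)` at the infinite place `i`. -/
def Frame.toInf (Φ : Frame K ι) (i : ι) : GL (Fin 2) K →* GL (Fin 2) ℂ :=
  GeneralLinearGroup.map (Φ.emb i)

variable (K) in
/-- The map of `GL₂(K)` to the finite adelic group. -/
def toGf : GL (Fin 2) K →* GfK K :=
  GeneralLinearGroup.map (algebraMap K (FiniteAdeleRing (𝓞 K) K))

/-- The space of spherical automorphic functions of level `U`. -/
def Space (_Φ : Frame K ι) (U : Subgroup (GfK K)) : Type _ := (ι → HSpace) × Yf U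

variable {Φ : Frame K ι} {U : Subgroup (GfK K)}

/-- A point of the space. -/
def Space.mk (τ : ι → HSpace) (y : Yf U) : Space Φ U := (τ, y)

/-- The archimedean coordinates. -/
def Space.pt (x : Space Φ U) : ι → HSpace := x.1

/-- The finite coordinate. -/
def Space.fin (x : Space Φ U) : Yf U := x.2

@[simp] theorem Space.pt_mk (τ : ι → HSpace) (y : Yf U) : (Space.mk (Φ := Φ) τ y).pt = τ := rfl

@[simp] theorem Space.fin_mk (τ : ι → HSpace) (y : Yf U) : (Space.mk (Φ := Φ) τ y).fin = y := rfl

@[simp] theorem Space.mk_pt_fin (x : Space Φ U) : Space.mk x.pt x.fin = x := rfl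

instance : SMul (GL (Fin 2) K) (Space Φ U) where
  smul γ x := Space.mk (fun i => Φ.toInf i γ • x.pt i) (toGf K γ • x.fin)

theorem Space.smul_mk (γ : GL (Fin 2) K) (τ : ι → HSpace) (y : Yf U) :
    γ • Space.mk (Φ := Φ) τ y = Space.mk (fun i => Φ.toInf i γ • τ i) (toGf K γ • y) := rfl

instance : MulAction (GL (Fin 2) K) (Space Φ U) where
  one_smul x := by
    show Space.mk _ _ = x
    simp only [map_one, one_smul, Space.mk_pt_fin]
  mul_smul γ δ x := by
    show Space.mk _ _ = Space.mk _ _
    simp only [map_mul, mul_smul]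
    rfl

/-- An automorphic function: invariant under `GL₂(K)`. -/
def IsInvariant (φ : Space Φ U → ℂ) : Prop := ∀ (γ : GL (Fin 2) K) (x : Space Φ U), φ (γ • x) = φ x

/-- The Hecke operator of the double coset of `D`. -/
def heckeOp (D : GfK K) (φ : Space Φ U → ℂ) : Space Φ U → ℂ := fun x =>
  ∑ᶠ y ∈ nbrs D x.fin, φ (Space.mk x.pt y)

theorem heckeOp_mk (D : GfK K) (φ : Space Φ U → ℂ) (τ : ι → HSpace) (y : Yf U) :
    heckeOp D φ (Space.mk τ y) = ∑ᶠ y' ∈ nbrs D y, φ (Space.mk τ y') := rfl

theorem heckeOp_add (hU : IsLevel U) (D : GfK K) (φ ψ : Space Φ U → ℂ) :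
    heckeOp D (φ + ψ) = heckeOp D φ + heckeOp D ψ := by
  funext x
  simp only [heckeOp, Pi.add_apply]
  exact finsum_mem_add_distrib (finite_nbrs hU D x.fin)

theorem heckeOp_smul (hU : IsLevel U) (D : GfK K) (c : ℂ) (φ : Space Φ U → ℂ) :
    heckeOp D (c • φ) = c • heckeOp D φ := by
  funext x
  simp only [heckeOp, Pi.smul_apply, smul_eq_mul]
  exact (AddMonoidHom.map_finsum_mem _ (AddMonoidHom.mulLeft c) (finite_nbrs hU D x.fin)).symm

theorem IsInvariant.heckeOp {φ : Space Φ U → ℂ} (hφ : IsInvariant φ) (D : GfK K) :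
    IsInvariant (Adelic.heckeOp D φ) := by
  intro γ x
  have hsm : γ • x = Space.mk (fun i => Φ.toInf i γ • x.pt i) (toGf K γ • x.fin) := rfl
  rw [hsm, heckeOp_mk, nbrs_smul, finsum_mem_image (fun a _ b _ h => smul_left_cancel _ h)]
  refine finsum_congr fun y => finsum_congr fun _ => ?_
  exact hφ γ (Space.mk x.pt y)

/-- Replace the coordinate at `i`. -/
def Space.update [DecidableEq ι] (x : Space Φ U) (i : ι) (τ : HSpace) : Space Φ U :=
  Space.mk (Function.update x.pt i τ) x.fin

/-- The point-pair operator of the kernel `k` at the place `i`. -/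
def pointPairOp [DecidableEq ι] (k : ℝ → ℂ) (i : ι) (φ : Space Φ U → ℂ) : Space Φ U → ℂ :=
  fun x => ∫ τ, k (HSpace.coshDist (x.pt i) τ) * φ (x.update i τ) ∂HSpace.measure

/-- The spherical transform of `k` at the parameter `s`. -/
def sphTransform (k : ℝ → ℂ) (s : ℂ) : ℂ :=
  ∫ τ, k (HSpace.coshDist HSpace.base τ) * ((τ.r : ℂ) ^ (1 + s)) ∂HSpace.measure

/-- Eigenfunction of all point-pair operators with parameter `s` (Laplace eigenvalue `1 - s²`). -/
def IsSphericalEigen [DecidableEq ι] (φ : Space Φ U → ℂ) (s : ℂ) : Prop :=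
  ∀ k : ℝ → ℂ, Continuous k → HasCompactSupport k → ∀ (i : ι) (x : Space Φ U),
    pointPairOp k i φ x = sphTransform k s * φ x

/-- The constant term along the upper triangular unipotents vanishes at every finite coordinate. -/
def unipotent {R : Type*} [CommRing R] (t : R) : GL (Fin 2) R :=
  ⟨!![1, t; 0, 1], !![1, -t; 0, 1], by ext i j; fin_cases i <;> fin_cases j <;> simp,
    by ext i j; fin_cases i <;> fin_cases j <;> simp⟩

/-- The torus element `diag(a, b)`. -/
def diag2 {R : Type*} [CommRing R] (a b : Rˣ) : GL (Fin 2) R :=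
  ⟨!![(a : R), 0; 0, (b : R)], !![((a⁻¹ : Rˣ) : R), 0; 0, ((b⁻¹ : Rˣ) : R)],
    by ext i j; fin_cases i <;> fin_cases j <;> simp,
    by ext i j; fin_cases i <;> fin_cases j <;> simp⟩

/-- The Weyl element. -/
def weyl {R : Type*} [CommRing R] : GL (Fin 2) R :=
  ⟨!![0, -1; 1, 0], !![0, 1; -1, 0], by ext i j; fin_cases i <;> fin_cases j <;> simp,
    by ext i j; fin_cases i <;> fin_cases j <;> simp⟩

@[simp] theorem coe_unipotent {R : Type*} [CommRing R] (t : R) :
    (unipotent t : Matrix (Fin 2) (Fin 2) R) = !![1, t; 0, 1] := rfl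

@[simp] theorem coe_diag2 {R : Type*} [CommRing R] (a b : Rˣ) :
    (diag2 a b : Matrix (Fin 2) (Fin 2) R) = !![(a : R), 0; 0, (b : R)] := rfl

@[simp] theorem coe_weyl {R : Type*} [CommRing R] :
    ((weyl : GL (Fin 2) R) : Matrix (Fin 2) (Fin 2) R) = !![0, -1; 1, 0] := rfl

variable (K) in
/-- `diag(ϖ, 1)` at the place `v`, the Hecke matrix of `T_v` for a uniformiser adele `ϖ`. -/
def heckeMatrix (ϖ : (FiniteAdeleRing (𝓞 K) K)ˣ) : GfK K := diag2 ϖ 1

/-- `ϖ` is a uniformiser at `v` and one elsewhere. -/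
def IsUniformiserAt (v : HeightOneSpectrum (𝓞 K)) (ϖ : (FiniteAdeleRing (𝓞 K) K)ˣ) : Prop :=
  Valued.v ((ϖ : FiniteAdeleRing (𝓞 K) K) v) = WithZero.exp (-1 : ℤ) ∧
    ∀ w ≠ v, (ϖ : FiniteAdeleRing (𝓞 K) K) w = 1

end Fermat.Agent.LT.Adelic

end
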