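import Fermat.Agent.LT.Adelic.Levels
import Fermat.Agent.LT.Adelic.IdeleClasses
import Fermat.Agent.LT.Adelic.Space

/-!
# Strong approximation for `SL₂` and finiteness of `GL₂(K) \ GL₂(𝔸_f) / U`
-/

set_option autoImplicit false
set_option maxHeartbeats 400000

noncomputable section

namespace Fermat.Agent.LT.Adelic

open IsDedekindDomain Matrix NumberField

variable {R : Type*} [CommRing R] [IsDedekindDomain R] {K : Type*} [Field K] [Algebra R K]
  [IsFractionRing R K]

/-- The diagonal embedding of `GL₂(K)`, for a general Dedekind domain. -/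
def toGfR : GL (Fin 2) K →* Gf R K :=
  GeneralLinearGroup.map (algebraMap K (FiniteAdeleRing R K))

theorem GL.ext_fin_two {S : Type*} [CommRing S] {g h : GL (Fin 2) S}
    (H : (g : Matrix (Fin 2) (Fin 2) S) = (h : Matrix (Fin 2) (Fin 2) S)) : g = h := Units.ext H

/-- The lower unipotent. -/
def lowerUnipotent {S : Type*} [CommRing S] (t : S) : GL (Fin 2) S :=
  ⟨!![1, 0; t, 1], !![1, 0; -t, 1], by ext i j; fin_cases i <;> fin_cases j <;> simp,
    by ext i j; fin_cases i <;> fin_cases j <;> simp⟩

@[simp] theorem coe_lowerUnipotent {S : Type*} [CommRing S] (t : S) :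
    (lowerUnipotent t : Matrix (Fin 2) (Fin 2) S) = !![1, 0; t, 1] := rfl

theorem map_unipotent {S T : Type*} [CommRing S] [CommRing T] (f : S →+* T) (t : S) :
    GeneralLinearGroup.map f (unipotent t) = unipotent (f t) := by
  apply GL.ext_fin_two
  ext i j; fin_cases i <;> fin_cases j <;> simp

theorem map_lowerUnipotent {S T : Type*} [CommRing S] [CommRing T] (f : S →+* T) (t : S) :
    GeneralLinearGroup.map f (lowerUnipotent t) = lowerUnipotent (f t) := by
  apply GL.ext_fin_two
  ext i j; fin_cases i <;> fin_cases j <;> simp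

theorem det_unipotent {S : Type*} [CommRing S] (t : S) :
    ((unipotent t : GL (Fin 2) S) : Matrix (Fin 2) (Fin 2) S).det = 1 := by
  simp [Matrix.det_fin_two]

theorem det_lowerUnipotent {S : Type*} [CommRing S] (t : S) :
    ((lowerUnipotent t : GL (Fin 2) S) : Matrix (Fin 2) (Fin 2) S).det = 1 := by
  simp [Matrix.det_fin_two]

/-- An adele with every component nonzero and almost all units is a unit. -/
theorem isUnit_of_forall {a : FiniteAdeleRing R K} (h0 : ∀ v, a v ≠ 0)
    (h : ∀ᶠ v in Filter.cofinite, Valued.v (a v) = 1) : IsUnit a :=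
  FiniteAdeleRing.isUnit_iff.mpr ⟨h0, h⟩

/-- Make the lower left entry a unit by a lower unipotent. -/
theorem exists_lower_unit {g : Gf R K}
    (hg : (g : Matrix (Fin 2) (Fin 2) (FiniteAdeleRing R K)).det = 1) :
    ∃ t : FiniteAdeleRing R K,
      IsUnit ((g : Matrix (Fin 2) (Fin 2) (FiniteAdeleRing R K)) 1 0 +
        t * (g : Matrix (Fin 2) (Fin 2) (FiniteAdeleRing R K)) 0 0) := by
  classical
  set a := (g : Matrix (Fin 2) (Fin 2) (FiniteAdeleRing R K)) 0 0
  set b := (g : Matrix (Fin 2) (Fin 2) (FiniteAdeleRing R K)) 0 1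
  set c := (g : Matrix (Fin 2) (Fin 2) (FiniteAdeleRing R K)) 1 0
  set d := (g : Matrix (Fin 2) (Fin 2) (FiniteAdeleRing R K)) 1 1
  have hdet : a * d - b * c = 1 := by rw [← hg, Matrix.det_fin_two]
  have hdetv : ∀ v, a v * d v - b v * c v = 1 := fun v => by
    have := congrArg (fun x : FiniteAdeleRing R K => x v) hdet
    simpa only [coe_apply_sub, coe_apply_mul, coe_apply_one] using this
  -- the places where `0` works
  let keep : HeightOneSpectrum R → Prop := fun v => c v ≠ 0 ∧
    ((Valued.v (a v) ≤ 1 ∧ Valued.v (b v) ≤ 1 ∧ Valued.v (c v) ≤ 1 ∧ Valued.v (d v) ≤ 1) →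
      Valued.v (c v) = 1)
  let t : FiniteAdeleRing R K := ⟨fun v => if keep v then 0 else 1,
    Filter.Eventually.of_forall fun v => by
      simp only [SetLike.mem_coe, HeightOneSpectrum.mem_adicCompletionIntegers]
      split
      · rw [map_zero]; exact zero_le
      · rw [map_one]⟩
  have ht : ∀ v, t v = if keep v then 0 else 1 := fun v => rfl
  refine ⟨t, isUnit_of_forall (fun v => ?_) ?_⟩
  · rw [coe_apply_add, coe_apply_mul, ht]
    by_cases hk : keep v
    · rw [if_pos hk, zero_mul, add_zero]; exact hk.1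
    · rw [if_neg hk, one_mul]
      intro h
      rcases eq_or_ne (c v) 0 with hc | hc
      · rw [hc, zero_add] at h
        have := hdetv v
        rw [h, hc, zero_mul, mul_zero, sub_zero] at this
        exact zero_ne_one this
      · simp only [keep, hc, ne_eq, not_false_eq_true, true_and, Classical.not_imp] at hk
        obtain ⟨⟨ha, hb, -, hd⟩, hc1⟩ := hk
        have hca : a v = -c v := eq_neg_of_add_eq_zero_right h
        have := hdetv v
        rw [hca] at this
        have hcle : Valued.v (c v) ≤ 1 := by rw [hca, Valuation.map_neg] at ha; exact ha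
        have hle : Valued.v (-c v * d v - b v * c v) < 1 := by
          refine lt_of_le_of_lt (Valuation.map_sub _ _ _) (max_lt ?_ ?_)
          · rw [map_mul, Valuation.map_neg]
            exact lt_of_le_of_lt (mul_le_of_le_one_right' hd)
              (lt_of_le_of_ne hcle hc1)
          · rw [map_mul]
            exact lt_of_le_of_lt (mul_le_of_le_one_left' hb)
              (lt_of_le_of_ne hcle hc1)
        rw [this, map_one] at hle
        exact lt_irrefl _ hle
  · filter_upwards [a.2, b.2, c.2, d.2] with v ha hb hc hd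
    change Valued.v (a v) ≤ 1 at ha
    change Valued.v (b v) ≤ 1 at hb
    change Valued.v (c v) ≤ 1 at hc
    change Valued.v (d v) ≤ 1 at hd
    rw [coe_apply_add, coe_apply_mul, ht]
    by_cases hk : keep v
    · rw [if_pos hk, zero_mul, add_zero]; exact hk.2 ⟨ha, hb, hc, hd⟩
    · rw [if_neg hk, one_mul]
      have hc1 : Valued.v (c v) < 1 := by
        refine lt_of_le_of_ne hc fun h => hk ⟨fun h0 => ?_, fun _ => h⟩
        rw [h0, map_zero] at h
        exact zero_ne_one h
      have hbc : Valued.v (b v * c v) < 1 := by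
        rw [map_mul]; exact lt_of_le_of_lt (mul_le_of_le_one_left' hb) hc1
      have had : Valued.v (a v * d v) = 1 := by
        rw [show a v * d v = 1 + b v * c v by linear_combination hdetv v]
        exact Valuation.map_one_add_of_lt _ hbc
      have ha1 : Valued.v (a v) = 1 := le_antisymm ha (by
        calc (1 : _) = Valued.v (a v) * Valued.v (d v) := by rw [← map_mul, had]
          _ ≤ Valued.v (a v) := mul_le_of_le_one_right' hd)
      rw [Valuation.map_add_eq_of_lt_right _ (by rw [ha1]; exact hc1), ha1]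

/-- A determinant one element is a product of four elementary ones. -/
theorem exists_elementary_factorisation {g : Gf R K}
    (hg : (g : Matrix (Fin 2) (Fin 2) (FiniteAdeleRing R K)).det = 1) :
    ∃ t x c y : FiniteAdeleRing R K,
      g = lowerUnipotent t * unipotent x * lowerUnipotent c * unipotent y := by
  obtain ⟨t, u, hu⟩ := exists_lower_unit hg
  rw [Matrix.det_fin_two] at hg
  refine ⟨-t, ((g : Matrix (Fin 2) (Fin 2) (FiniteAdeleRing R K)) 0 0 - 1) * (↑u⁻¹ : FiniteAdeleRing R K),
    u, ((g : Matrix (Fin 2) (Fin 2) (FiniteAdeleRing R K)) 1 1 +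
      t * (g : Matrix (Fin 2) (Fin 2) (FiniteAdeleRing R K)) 0 1 - 1) * (↑u⁻¹ : FiniteAdeleRing R K),
    GL.ext_fin_two ?_⟩
  have h1 : (u : FiniteAdeleRing R K) * (↑u⁻¹ : FiniteAdeleRing R K) = 1 := u.mul_inv
  set a := (g : Matrix (Fin 2) (Fin 2) (FiniteAdeleRing R K)) 0 0 with ha
  set b := (g : Matrix (Fin 2) (Fin 2) (FiniteAdeleRing R K)) 0 1 with hb
  set c := (g : Matrix (Fin 2) (Fin 2) (FiniteAdeleRing R K)) 1 0 with hc
  set d := (g : Matrix (Fin 2) (Fin 2) (FiniteAdeleRing R K)) 1 1 with hd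
  set w := (↑u⁻¹ : FiniteAdeleRing R K)
  refine Matrix.ext fun i j => ?_
  fin_cases i <;> fin_cases j <;>
    simp [Matrix.mul_apply, Fin.sum_univ_two, ← ha, ← hb, ← hc, ← hd]
  · linear_combination -(a - 1) * h1
  · linear_combination -(b + (a - 1) * (d + t * b - 1) * w) * h1 + b * w * hu - w * hg
  · linear_combination -hu + t * (a - 1) * h1
  · linear_combination -(d + t * b - 1) * h1 -
      t * (-(b + (a - 1) * (d + t * b - 1) * w) * h1 + b * w * hu - w * hg)

/-- `SL₂(K)` is dense in `SL₂(𝔸_f)`. -/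
theorem strong_approximation {g : Gf R K}
    (hg : (g : Matrix (Fin 2) (Fin 2) (FiniteAdeleRing R K)).det = 1) {n : R} (hn : n ≠ 0) :
    ∃ γ : GL (Fin 2) K, (γ : Matrix (Fin 2) (Fin 2) K).det = 1 ∧
      (toGfR γ)⁻¹ * g ∈ principalLevel K n := by
  let P : Gf R K → Prop := fun g => ∀ n : R, n ≠ 0 →
    ∃ γ : GL (Fin 2) K, (γ : Matrix (Fin 2) (Fin 2) K).det = 1 ∧
      (toGfR γ)⁻¹ * g ∈ principalLevel K n
  have hmul : ∀ g h, P g → P h → P (g * h) := by
    intro g h hg hh n hn
    obtain ⟨γ₂, hd₂, h₂⟩ := hh n hn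
    obtain ⟨m, hm, hconj⟩ := exists_conj_le (toGfR γ₂)⁻¹ hn
    obtain ⟨γ₁, hd₁, h₁⟩ := hg m hm
    refine ⟨γ₁ * γ₂, by rw [Units.val_mul, Matrix.det_mul, hd₁, hd₂, one_mul], ?_⟩
    have := (principalLevel K n).mul_mem (hconj _ h₁) h₂
    rw [inv_inv] at this
    rw [map_mul, _root_.mul_inv_rev]
    convert! this using 1
    group
  have hup : ∀ x, P (unipotent x) := by
    intro x n hn
    obtain ⟨k, hk⟩ := exists_memMul_sub x hn
    refine ⟨unipotent k, det_unipotent k, ?_⟩
    rw [toGfR, map_unipotent]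
    generalize algebraMap K (FiniteAdeleRing R K) k = k' at hk
    constructor
    · intro i j
      fin_cases i <;> fin_cases j <;>
        simp [unipotent, Units.val_mul, Matrix.mul_apply, Fin.sum_univ_two] <;>
        first
          | exact memMul_zero_right n
          | (convert! hk using 1; ring)
    · intro i j
      fin_cases i <;> fin_cases j <;>
        simp [unipotent, Units.val_mul, Matrix.mul_apply, Fin.sum_univ_two] <;>
        first
          | exact memMul_zero_right n
          | (convert! hk.neg using 1; ring)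
  have hlow : ∀ x, P (lowerUnipotent x) := by
    intro x n hn
    obtain ⟨k, hk⟩ := exists_memMul_sub x hn
    refine ⟨lowerUnipotent k, det_lowerUnipotent k, ?_⟩
    rw [toGfR, map_lowerUnipotent]
    generalize algebraMap K (FiniteAdeleRing R K) k = k' at hk
    constructor
    · intro i j
      fin_cases i <;> fin_cases j <;>
        simp [lowerUnipotent, Units.val_mul, Matrix.mul_apply, Fin.sum_univ_two] <;>
        first
          | exact memMul_zero_right n
          | (convert! hk using 1; ring)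
    · intro i j
      fin_cases i <;> fin_cases j <;>
        simp [lowerUnipotent, Units.val_mul, Matrix.mul_apply, Fin.sum_univ_two] <;>
        first
          | exact memMul_zero_right n
          | (convert! hk.neg using 1; ring)
  obtain ⟨t, x, c, y, rfl⟩ := exists_elementary_factorisation hg
  exact hmul _ _ (hmul _ _ (hmul _ _ (hlow t) (hup x)) (hlow c)) (hup y) n hn

/-- Modulo `GL₂(K)` on the left and a level on the right, `g` is `diag(det g, 1)`. -/
theorem exists_eq_mul_diag {U : Subgroup (Gf R K)} {n : R} (hn : n ≠ 0)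
    (hnU : principalLevel K n ≤ U) (g : Gf R K) (t : (FiniteAdeleRing R K)ˣ)
    (ht : (g : Matrix (Fin 2) (Fin 2) (FiniteAdeleRing R K)).det = t) :
    ∃ γ : GL (Fin 2) K, (γ : Matrix (Fin 2) (Fin 2) K).det = 1 ∧
      ∃ u ∈ U, g = toGfR γ * diag2 t 1 * u := by
  obtain ⟨m, hm, hconj⟩ := exists_conj_le (diag2 t 1 : Gf R K)⁻¹ hn
  have hdet : ((g * (diag2 t 1)⁻¹ : Gf R K) : Matrix (Fin 2) (Fin 2) (FiniteAdeleRing R K)).det = 1 := by
    rw [Units.val_mul, Matrix.det_mul, ht, show ((diag2 t 1 : Gf R K)⁻¹ : Gf R K).val =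
      !![((t⁻¹ : (FiniteAdeleRing R K)ˣ) : FiniteAdeleRing R K), 0; 0, ((1⁻¹ : (FiniteAdeleRing R K)ˣ) : FiniteAdeleRing R K)]
      from rfl, Matrix.det_fin_two_of]
    simp
  obtain ⟨γ, hγ, hmem⟩ := strong_approximation hdet hm
  refine ⟨γ, hγ, _, hnU (hconj _ hmem), ?_⟩
  group

/-- `GL₂(𝔸_f) = GL₂(K) · (finite set) · GL₂(Ô)`. -/
theorem exists_finite_reps [Fintype (ClassGroup R)] :
    ∃ T : Set (Gf R K), T.Finite ∧ ∀ g : Gf R K, ∃ γ : GL (Fin 2) K, ∃ t ∈ T,
      ∃ u ∈ principalLevel K (1 : R), g = toGfR γ * t * u := by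
  obtain ⟨S, hS, hcover⟩ := exists_finite_idele_reps R K
  refine ⟨(fun s => diag2 s 1) '' S, hS.image _, fun g => ?_⟩
  obtain ⟨s, hs, x, w, hw, ht⟩ := hcover
    (Matrix.GeneralLinearGroup.det g)
  obtain ⟨γ, -, u, hu, hg⟩ := exists_eq_mul_diag one_ne_zero le_rfl g
    (Matrix.GeneralLinearGroup.det g) (Matrix.GeneralLinearGroup.val_det_apply g).symm
  have hdiag : ∀ a b : (FiniteAdeleRing R K)ˣ,
      (diag2 (a * b) 1 : Gf R K) = diag2 a 1 * diag2 b 1 := fun a b => by
    apply GL.ext_fin_two
    ext i j; fin_cases i <;> fin_cases j <;> simp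
  have hx : (diag2 (principalIdele x) 1 : Gf R K) = toGfR (diag2 x 1) := by
    apply GL.ext_fin_two
    ext i j; fin_cases i <;> fin_cases j <;> simp [toGfR]
  have hwmem : (diag2 w 1 : Gf R K) ∈ principalLevel K (1 : R) := by
    rw [mem_principalLevel_one]
    constructor <;> intro i j <;> fin_cases i <;> fin_cases j <;>
      first
        | exact memMul_zero_right 1
        | exact memMul_one_iff.mpr (one_mem _)
        | exact memMul_one_iff.mpr fun v => (hw v).le
        | exact memMul_one_iff.mpr fun v => (hw.inv v).le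
        | exact memMul_one_iff.mpr (by simp [diag2])
  refine ⟨γ * diag2 x 1, _, ⟨s, hs, rfl⟩, diag2 w 1 * u, mul_mem hwmem hu, ?_⟩
  rw [hg, ht, hdiag, hdiag, hx, map_mul]
  simp only [mul_assoc]

end Fermat.Agent.LT.Adelic

end
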