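import Fermat.Agent.LT.Adelic.Space
import Mathlib.MeasureTheory.Function.Jacobian
import Mathlib.MeasureTheory.Group.Action
import Mathlib.LinearAlgebra.Complex.FiniteDimensional
import Mathlib.Analysis.Calculus.FDeriv.Pi
import Mathlib.MeasureTheory.Measure.Haar.OfBasis

/-!
# Continuity of the action on hyperbolic three space and invariance of `dz dr / r³`
-/

set_option autoImplicit false
set_option maxHeartbeats 400000

noncomputable section

namespace Fermat.Agent.LT.Adelic.HSpace

open Matrix Complex ComplexConjugate MeasureTheory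
open scoped Pointwise

theorem continuous_coords : Continuous coords := continuous_induced_dom

theorem continuous_z : Continuous fun p : HSpace => p.z := continuous_fst.comp continuous_coords

theorem continuous_r : Continuous fun p : HSpace => p.r := continuous_snd.comp continuous_coords

theorem continuous_iff_coords {X : Type*} [TopologicalSpace X] {f : X → HSpace} :
    Continuous f ↔ Continuous fun x => (f x).coords := continuous_induced_rng

theorem continuous_smul_const (g : GL (Fin 2) ℂ) : Continuous fun p : HSpace => g • p := by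
  refine continuous_iff_coords.mpr (Continuous.prodMk ?_ ?_)
  · simp only [smul_z]
    refine Continuous.div ?_ ?_ fun p => ofReal_ne_zero.mpr (denSq_pos g p).ne'
    · have := continuous_z; have := continuous_r
      fun_prop
    · have := continuous_z; have := continuous_r
      unfold denSq
      fun_prop
  · simp only [smul_r]
    refine Continuous.div ?_ ?_ fun p => (denSq_pos g p).ne'
    · have := continuous_r
      fun_prop
    · have := continuous_z; have := continuous_r
      unfold denSq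
      fun_prop

instance : ContinuousConstSMul (GL (Fin 2) ℂ) HSpace := ⟨continuous_smul_const⟩

instance : SecondCountableTopology HSpace :=
  isOpenEmbedding_coords.isEmbedding.secondCountableTopology

instance : BorelSpace HSpace := ⟨by
  have h : (inferInstance : MeasurableSpace (ℂ × ℝ)) = borel (ℂ × ℝ) := BorelSpace.measurable_eq
  show MeasurableSpace.comap coords inferInstance = _
  rw [h]
  exact borel_comap.symm⟩

instance : (volume : Measure (ℂ × ℝ)).IsAddHaarMeasure :=
  Measure.prod.instIsAddHaarMeasure _ _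

theorem measurable_coords : Measurable coords := measurableEmbedding_coords.measurable

theorem measurable_iff_coords {X : Type*} [MeasurableSpace X] {f : X → HSpace} :
    Measurable f ↔ Measurable fun x => (f x).coords :=
  measurable_comap_iff

instance : MeasurableConstSMul (GL (Fin 2) ℂ) HSpace :=
  ⟨fun g => (continuous_smul_const g).measurable⟩

/-- The density `r⁻³`. -/
def dens (x : ℂ × ℝ) : ENNReal := ENNReal.ofReal ((x.2 ^ 3)⁻¹)

theorem measure_apply_set {s : Set HSpace} (hs : MeasurableSet s) :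
    measure s = ∫⁻ x in coords '' s, dens x := by
  rw [measure, measurableEmbedding_coords.comap_apply,
    withDensity_apply _ (measurableEmbedding_coords.measurableSet_image.mpr hs)]
  rfl

instance : SigmaFinite measure := by
  rw [measure]
  haveI : SigmaFinite
      (volume.withDensity fun x : ℂ × ℝ => ENNReal.ofReal ((x.2 ^ 3)⁻¹)) :=
    SigmaFinite.withDensity_ofReal _
  refine ⟨⟨⟨fun n => coords ⁻¹' spanningSets
    (volume.withDensity fun x : ℂ × ℝ => ENNReal.ofReal ((x.2 ^ 3)⁻¹)) n, fun _ => trivial,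
    fun n => ?_, ?_⟩⟩⟩
  · rw [measurableEmbedding_coords.comap_apply]
    exact lt_of_le_of_lt (measure_mono (Set.image_preimage_subset _ _))
      (measure_spanningSets_lt_top _ n)
  · rw [← Set.preimage_iUnion, iUnion_spanningSets, Set.preimage_univ]

/-- The image of a set has the same measure. -/
def Preserves (g : GL (Fin 2) ℂ) : Prop :=
  ∀ s : Set HSpace, MeasurableSet s → measure ((g • ·) '' s) = measure s

theorem measurableSet_image_smul (g : GL (Fin 2) ℂ) {s : Set HSpace} (hs : MeasurableSet s) :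
    MeasurableSet ((g • ·) '' s) := by
  rw [Set.image_smul, ← Set.preimage_smul_inv]
  exact measurable_const_smul g⁻¹ hs

theorem preserves_one : Preserves 1 := fun s _ => by simp

theorem Preserves.mul {g h : GL (Fin 2) ℂ} (hg : Preserves g) (hh : Preserves h) :
    Preserves (g * h) := fun s hs => by
  have : ((g * h) • ·) '' s = (g • ·) '' ((h • ·) '' s) := by
    simp only [Set.image_image, mul_smul]
  rw [this, hg _ (measurableSet_image_smul h hs), hh s hs]

theorem preserves_of_jacobian (g : GL (Fin 2) ℂ) (F : ℂ × ℝ → ℂ × ℝ)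
    (F' : ℂ × ℝ → ℂ × ℝ →L[ℝ] ℂ × ℝ) (hF : ∀ p : HSpace, (g • p).coords = F p.coords)
    (hd : ∀ x : ℂ × ℝ, 0 < x.2 → HasFDerivAt F (F' x) x)
    (hj : ∀ p : HSpace, |(F' p.coords).det| * ((g • p).r ^ 3)⁻¹ = (p.r ^ 3)⁻¹) :
    Preserves g := by
  intro s hs
  have himg : coords '' ((g • ·) '' s) = F '' (coords '' s) := by
    simp only [Set.image_image, hF]
  have hs' := measurableEmbedding_coords.measurableSet_image.mpr hs
  rw [measure_apply_set (measurableSet_image_smul g hs), measure_apply_set hs, himg]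
  have hinj : Set.InjOn F (coords '' s) := by
    rintro _ ⟨p, -, rfl⟩ _ ⟨q, -, rfl⟩ h
    rw [← hF, ← hF] at h
    rw [MulAction.injective g (coords_injective h)]
  rw [lintegral_image_eq_lintegral_abs_det_fderiv_mul volume hs'
    (Set.forall_mem_image.mpr fun p _ => (hd p.coords p.r_pos).hasFDerivWithinAt) hinj dens]
  refine setLIntegral_congr_fun hs' ?_
  rintro _ ⟨p, -, rfl⟩
  simp only [dens]
  rw [← ENNReal.ofReal_mul (abs_nonneg _), ← hF]
  exact congrArg ENNReal.ofReal (hj p)

/-- Coordinates in `ℝ³`. -/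
def toR3 : (ℂ × ℝ) ≃L[ℝ] (Fin 3 → ℝ) :=
  LinearEquiv.toContinuousLinearEquiv
    { toFun := fun x => ![x.1.re, x.1.im, x.2]
      invFun := fun v => (⟨v 0, v 1⟩, v 2)
      map_add' := fun x y => by ext i; fin_cases i <;> simp
      map_smul' := fun c x => by ext i; fin_cases i <;> simp
      left_inv := fun x => by simp
      right_inv := fun v => by ext i; fin_cases i <;> simp }

@[simp] theorem toR3_apply (x : ℂ × ℝ) : toR3 x = ![x.1.re, x.1.im, x.2] := rfl

@[simp] theorem toR3_symm_apply (v : Fin 3 → ℝ) : toR3.symm v = (⟨v 0, v 1⟩, v 2) := rfl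

/-- A linear map of `ℂ × ℝ` given by a matrix. -/
def matCLM (M : Matrix (Fin 3) (Fin 3) ℝ) : ℂ × ℝ →L[ℝ] ℂ × ℝ :=
  (toR3.symm : (Fin 3 → ℝ) →L[ℝ] ℂ × ℝ) ∘L
    (LinearMap.toContinuousLinearMap (Matrix.toLin' M)) ∘L (toR3 : ℂ × ℝ →L[ℝ] (Fin 3 → ℝ))

theorem det_matCLM (M : Matrix (Fin 3) (Fin 3) ℝ) : (matCLM M).det = M.det := by
  have h := LinearMap.det_conj (Matrix.toLin' M) (toR3.symm.toLinearEquiv)
  rw [LinearMap.det_toLin'] at h
  rw [← h]
  rfl

theorem hasFDerivAt_matCLM {G : (Fin 3 → ℝ) → (Fin 3 → ℝ)} {M : Matrix (Fin 3) (Fin 3) ℝ}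
    {x : ℂ × ℝ} (h : HasFDerivAt G (LinearMap.toContinuousLinearMap (Matrix.toLin' M)) (toR3 x)) :
    HasFDerivAt (fun y => toR3.symm (G (toR3 y))) (matCLM M) x :=
  toR3.symm.hasFDerivAt.comp x (h.comp x toR3.hasFDerivAt)

theorem preserves_unipotent (t : ℂ) : Preserves (unipotent t) := by
  have hsm : ∀ p : HSpace, (unipotent t • p).coords = (p.z + t, p.r) := fun p => by
    simp [coords, smul_z, smul_r, denSq, absDet]
  refine preserves_of_jacobian _ (fun x => (x.1 + t, x.2))
    (fun _ => ContinuousLinearMap.id ℝ (ℂ × ℝ)) hsm (fun x _ => ?_) fun p => ?_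
  · have := (hasFDerivAt_id (𝕜 := ℝ) x).add_const (t, (0 : ℝ))
    refine this.congr_of_eventuallyEq ?_
    filter_upwards with y
    simp [Prod.ext_iff]
  · have hr : (unipotent t • p).r = p.r := congrArg Prod.snd (hsm p)
    simp [hr, ContinuousLinearMap.det]

theorem preserves_diag2 (a d : ℂˣ) : Preserves (diag2 a d) := by
  set α : ℂ := (a : ℂ) / d with hα
  have hd0 : (d : ℂ) ≠ 0 := d.ne_zero
  have hα0 : α ≠ 0 := div_ne_zero a.ne_zero hd0
  have hsm : ∀ p : HSpace, (diag2 a d • p).coords = (α * p.z, ‖α‖ * p.r) := fun p => by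
    refine Prod.ext ?_ ?_
    · simp only [coords, smul_z, denSq, coe_diag2]
      simp [hα, Complex.normSq_eq_conj_mul_self, ← Complex.mul_conj]
      field_simp
    · simp only [coords, smul_r, denSq, absDet, coe_diag2]
      simp [hα, det_fin_two, Complex.normSq_eq_norm_sq]
      field_simp
  refine preserves_of_jacobian _ (fun x => (α * x.1, ‖α‖ * x.2))
    (fun _ => matCLM !![α.re, -α.im, 0; α.im, α.re, 0; 0, 0, ‖α‖]) hsm (fun x _ => ?_) fun p => ?_
  · set L := matCLM !![α.re, -α.im, 0; α.im, α.re, 0; 0, 0, ‖α‖] with hL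
    refine (L.hasFDerivAt (x := x)).congr_of_eventuallyEq ?_
    filter_upwards with y
    simp [hL, matCLM, Prod.ext_iff, Complex.ext_iff, Matrix.vecMul, Matrix.mulVec, dotProduct,
      Fin.sum_univ_three]
    ring_nf
    simp
  · have hr : (diag2 a d • p).r = ‖α‖ * p.r := congrArg Prod.snd (hsm p)
    have hn : 0 < ‖α‖ := norm_pos_iff.mpr hα0
    have hdet : (!![α.re, -α.im, 0; α.im, α.re, 0; 0, 0, ‖α‖] : Matrix (Fin 3) (Fin 3) ℝ).det =
        ‖α‖ ^ 3 := by
      have h2 : ‖α‖ ^ 2 = α.re * α.re + α.im * α.im := by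
        rw [Complex.sq_norm, Complex.normSq_apply]
      rw [det_fin_three]
      simp
      linear_combination (-‖α‖) * h2
    rw [hr, det_matCLM, hdet, abs_of_pos (pow_pos hn 3), mul_pow, mul_inv, ← mul_assoc,
      mul_inv_cancel₀ (pow_pos hn 3).ne', one_mul]

/-- The Weyl element in the coordinates of `ℝ³`. -/
def invR3 (v : Fin 3 → ℝ) : Fin 3 → ℝ :=
  ![-(v 0) / (v 0 ^ 2 + v 1 ^ 2 + v 2 ^ 2), v 1 / (v 0 ^ 2 + v 1 ^ 2 + v 2 ^ 2),
    v 2 / (v 0 ^ 2 + v 1 ^ 2 + v 2 ^ 2)]

/-- Its Jacobian. -/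
def jacInv (v : Fin 3 → ℝ) : Matrix (Fin 3) (Fin 3) ℝ :=
  !![-(v 1 ^ 2 + v 2 ^ 2 - v 0 ^ 2) / (v 0 ^ 2 + v 1 ^ 2 + v 2 ^ 2) ^ 2,
      2 * v 0 * v 1 / (v 0 ^ 2 + v 1 ^ 2 + v 2 ^ 2) ^ 2,
      2 * v 0 * v 2 / (v 0 ^ 2 + v 1 ^ 2 + v 2 ^ 2) ^ 2;
    -(2 * v 0 * v 1) / (v 0 ^ 2 + v 1 ^ 2 + v 2 ^ 2) ^ 2,
      (v 0 ^ 2 + v 2 ^ 2 - v 1 ^ 2) / (v 0 ^ 2 + v 1 ^ 2 + v 2 ^ 2) ^ 2,
      -(2 * v 1 * v 2) / (v 0 ^ 2 + v 1 ^ 2 + v 2 ^ 2) ^ 2;
    -(2 * v 0 * v 2) / (v 0 ^ 2 + v 1 ^ 2 + v 2 ^ 2) ^ 2,
      -(2 * v 1 * v 2) / (v 0 ^ 2 + v 1 ^ 2 + v 2 ^ 2) ^ 2,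
      (v 0 ^ 2 + v 1 ^ 2 - v 2 ^ 2) / (v 0 ^ 2 + v 1 ^ 2 + v 2 ^ 2) ^ 2]

theorem det_jacInv (v : Fin 3 → ℝ) (hv : 0 < v 2) :
    (jacInv v).det = ((v 0 ^ 2 + v 1 ^ 2 + v 2 ^ 2) ^ 3)⁻¹ := by
  have : (v 0 ^ 2 + v 1 ^ 2 + v 2 ^ 2) ≠ 0 := by positivity
  rw [jacInv, det_fin_three]
  simp
  field_simp
  ring

theorem hasFDerivAt_invR3 (v : Fin 3 → ℝ) (hv : 0 < v 2) :
    HasFDerivAt invR3 (LinearMap.toContinuousLinearMap (Matrix.toLin' (jacInv v))) v := by
  have h0 : v 0 ^ 2 + v 1 ^ 2 + v 2 ^ 2 ≠ 0 := by positivity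
  have hp : ∀ i : Fin 3, HasFDerivAt (fun w : Fin 3 → ℝ => w i)
      (ContinuousLinearMap.proj (R := ℝ) i) v := fun i => hasFDerivAt_apply i v
  have hρ := (((hp 0).pow 2).add ((hp 1).pow 2)).add ((hp 2).pow 2)
  have hinv := (hasDerivAt_inv h0).hasFDerivAt.comp v hρ
  rw [hasFDerivAt_pi']
  intro i
  fin_cases i
  · refine ((hp 0).neg.mul hinv).congr_fderiv ?_ |>.congr_of_eventuallyEq ?_
    · ext w
      simp [jacInv, Matrix.mulVec, dotProduct, Fin.sum_univ_three]
      field_simp
      ring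
    · filter_upwards with w
      simp [invR3, div_eq_mul_inv]
  · refine ((hp 1).mul hinv).congr_fderiv ?_ |>.congr_of_eventuallyEq ?_
    · ext w
      simp [jacInv, Matrix.mulVec, dotProduct, Fin.sum_univ_three]
      field_simp
      ring
    · filter_upwards with w
      simp [invR3, div_eq_mul_inv]
  · refine ((hp 2).mul hinv).congr_fderiv ?_ |>.congr_of_eventuallyEq ?_
    · ext w
      simp [jacInv, Matrix.mulVec, dotProduct, Fin.sum_univ_three]
      field_simp
      ring
    · filter_upwards with w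
      simp [invR3, div_eq_mul_inv]

theorem preserves_weyl : Preserves weyl := by
  have hsm : ∀ p : HSpace, ((weyl : GL (Fin 2) ℂ) • p).coords = toR3.symm (invR3 (toR3 p.coords)) := fun p => by
    have hρ : p.z.re ^ 2 + p.z.im ^ 2 + p.r ^ 2 ≠ 0 := by have := p.r_pos; positivity
    have hden : denSq (weyl : GL (Fin 2) ℂ) p = p.z.re ^ 2 + p.z.im ^ 2 + p.r ^ 2 := by
      simp [denSq, Complex.normSq_apply]; ring
    refine Prod.ext ?_ ?_
    · show ((weyl : GL (Fin 2) ℂ) • p).z = _
      rw [smul_z, hden]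
      apply Complex.ext <;> simp only [Complex.div_ofReal_re, Complex.div_ofReal_im] <;>
        simp [invR3, coords] <;> ring
    · show ((weyl : GL (Fin 2) ℂ) • p).r = _
      rw [smul_r, hden]
      simp [coords, absDet, invR3]
  refine preserves_of_jacobian _ (fun x => toR3.symm (invR3 (toR3 x)))
    (fun x => matCLM (jacInv (toR3 x))) hsm
    (fun x hx => hasFDerivAt_matCLM (hasFDerivAt_invR3 _ (by simpa using hx))) fun p => ?_
  have hr : ((weyl : GL (Fin 2) ℂ) • p).r = p.r / (p.z.re ^ 2 + p.z.im ^ 2 + p.r ^ 2) :=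
    (congrArg Prod.snd (hsm p)).trans (by simp [invR3, coords])
  have hρ : 0 < p.z.re ^ 2 + p.z.im ^ 2 + p.r ^ 2 := by have := p.r_pos; positivity
  rw [det_matCLM, det_jacInv _ (by simpa [coords] using p.r_pos), hr]
  simp only [toR3_apply, coords, Matrix.cons_val_zero, Matrix.cons_val_one, Matrix.head_cons,
    Matrix.cons_val]
  rw [abs_of_pos (by positivity)]
  have := p.r_pos
  field_simp

theorem preserves_all (g : GL (Fin 2) ℂ) : Preserves g := by
  set a := (g : Matrix (Fin 2) (Fin 2) ℂ) 0 0 with ha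
  set b := (g : Matrix (Fin 2) (Fin 2) ℂ) 0 1 with hb
  set c := (g : Matrix (Fin 2) (Fin 2) ℂ) 1 0 with hc
  set d := (g : Matrix (Fin 2) (Fin 2) ℂ) 1 1 with hd
  have hdet : a * d - b * c ≠ 0 := by
    have := (Matrix.isUnits_det_units g).ne_zero
    rwa [det_fin_two] at this
  by_cases h : c = 0
  · have had : a * d ≠ 0 := by simpa [h] using hdet
    have : g = diag2 (Units.mk0 a (left_ne_zero_of_mul had)) (Units.mk0 d (right_ne_zero_of_mul had)) *
        unipotent (b / a) := by
      refine Units.ext ?_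
      rw [Units.val_mul, eta_mat (g : Matrix (Fin 2) (Fin 2) ℂ)]
      have := left_ne_zero_of_mul had
      ext i j; fin_cases i <;> fin_cases j <;>
        simp [Matrix.mul_apply, Fin.sum_univ_two, ← ha, ← hb, ← hc, ← hd, h] <;> field_simp
    rw [this]
    exact (preserves_diag2 _ _).mul (preserves_unipotent _)
  · have : g = unipotent (a / c) * weyl *
        diag2 (Units.mk0 c h) (Units.mk0 ((a * d - b * c) / c) (div_ne_zero hdet h)) *
        unipotent (d / c) := by
      refine Units.ext ?_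
      rw [Units.val_mul, Units.val_mul, Units.val_mul, eta_mat (g : Matrix (Fin 2) (Fin 2) ℂ)]
      ext i j; fin_cases i <;> fin_cases j <;>
        simp [Matrix.mul_apply, Fin.sum_univ_two, ← ha, ← hb, ← hc, ← hd] <;> field_simp <;> ring
    rw [this]
    exact (((preserves_unipotent _).mul preserves_weyl).mul (preserves_diag2 _ _)).mul
      (preserves_unipotent _)

instance : SMulInvariantMeasure (GL (Fin 2) ℂ) HSpace measure where
  measure_preimage_smul g s hs := by
    have h : (g • ·) ⁻¹' s = (g⁻¹ • ·) '' s := by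
      rw [Set.image_smul, ← Set.preimage_smul]
    rw [h, preserves_all g⁻¹ s hs]

theorem measurePreserving_const_smul (g : GL (Fin 2) ℂ) :
    MeasurePreserving (fun p : HSpace => g • p) measure measure :=
  MeasureTheory.measurePreserving_smul g measure

end Fermat.Agent.LT.Adelic.HSpace

end
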