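import Fermat.Agent.LT.Adelic.Space
import Mathlib.LinearAlgebra.Matrix.GeneralLinearGroup.Projective

/-!
# The action of `PGL₂(K)` on the space of spherical automorphic functions

Scalar matrices act trivially.  Weights for the quotient sum over this group.
-/

set_option autoImplicit false

noncomputable section

namespace Fermat.Agent.LT.Adelic

open Matrix NumberField IsDedekindDomain
open scoped MatrixGroups

/-- Scalars act trivially on hyperbolic space. -/
theorem HSpace.scalar_smul (u : ℂˣ) (p : HSpace) :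
    (GeneralLinearGroup.scalar (Fin 2) u : GL (Fin 2) ℂ) • p = p := by
  have hu : Complex.normSq (u : ℂ) ≠ 0 := (Complex.normSq_pos.mpr u.ne_zero).ne'
  have hd : ((HSpace.denSq (GeneralLinearGroup.scalar (Fin 2) u) p : ℝ) : ℂ)
      = (u : ℂ) * (starRingEnd ℂ) (u : ℂ) := by
    simp [HSpace.denSq, GeneralLinearGroup.coe_scalar, Complex.mul_conj]
  apply HSpace.ext
  · rw [HSpace.smul_z, hd]
    simp [GeneralLinearGroup.coe_scalar]
    field_simp
  · rw [HSpace.smul_r, HSpace.absDet, HSpace.denSq]
    simp [GeneralLinearGroup.coe_scalar, Complex.normSq_eq_norm_sq]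

variable {K : Type*} [Field K] [NumberField K] {ι : Type*} {Φ : Frame K ι}
  {U : Subgroup (GfK K)}

theorem toGf_scalar (u : Kˣ) :
    toGf K (GeneralLinearGroup.scalar (Fin 2) u) ∈ centerGf (𝓞 K) K := by
  refine ⟨Units.map (algebraMap K (FiniteAdeleRing (𝓞 K) K)).toMonoidHom u,
    Units.ext (Matrix.ext fun i j => ?_)⟩
  simp only [toGf, scalarHom]
  fin_cases i <;> fin_cases j <;> simp [GeneralLinearGroup.coe_scalar]

/-- Scalars act trivially. -/
theorem Space.scalar_smul (u : Kˣ) (x : Space Φ U) :
    GeneralLinearGroup.scalar (Fin 2) u • x = x := by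
  have hfin : toGf K (GeneralLinearGroup.scalar (Fin 2) u) • x.fin = x.fin := by
    obtain ⟨g, hg⟩ := QuotientGroup.mk_surjective x.fin
    rw [← hg]
    refine QuotientGroup.eq.mpr ?_
    simp only [smul_eq_mul, _root_.mul_inv_rev]
    have hz : (toGf K (GeneralLinearGroup.scalar (Fin 2) u))⁻¹ ∈ centerGf (𝓞 K) K :=
      inv_mem (toGf_scalar u)
    rw [mul_assoc, centerGf_comm hz g, inv_mul_cancel_left]
    exact le_sup_right (a := U) hz
  have hinf : ∀ i, Φ.toInf i (GeneralLinearGroup.scalar (Fin 2) u) • x.pt i = x.pt i := by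
    intro i
    have : Φ.toInf i (GeneralLinearGroup.scalar (Fin 2) u)
        = GeneralLinearGroup.scalar (Fin 2) (Units.map (Φ.emb i).toMonoidHom u) := by
      refine Units.ext (Matrix.ext fun p q => ?_)
      simp only [Frame.toInf]
      fin_cases p <;> fin_cases q <;> simp [GeneralLinearGroup.coe_scalar]
    rw [this, HSpace.scalar_smul]
  show Space.mk _ _ = x
  rw [funext hinf, hfin]
  rfl

instance Space.instPGLAction : MulAction PGL(2, K) (Space Φ U) :=
  ProjGenLinGroup.mulActionOfGL Space.scalar_smul

theorem Space.mk_smul (g : GL (Fin 2) K) (x : Space Φ U) :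
    (ProjGenLinGroup.mk g : PGL(2, K)) • x = g • x := rfl

/-- Invariance under `GL₂(K)` is invariance under `PGL₂(K)`. -/
theorem isInvariant_iff_pgl (φ : Space Φ U → ℂ) :
    IsInvariant φ ↔ ∀ (g : PGL(2, K)) (x : Space Φ U), φ (g • x) = φ x := by
  constructor
  · intro h g x
    induction g using ProjGenLinGroup.induction_on with | mk g => exact h g x
  · intro h g x
    exact h (ProjGenLinGroup.mk g) x

end Fermat.Agent.LT.Adelic

end
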