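import Fermat.Agent.LT.Boundary.Defs
import Fermat.Agent.LT.Whittaker.Equivariance

/-!
# Whittaker coefficients of spherical cusp forms

`whit Φ α τ = (∏ rᵢ K₀(4π|αᵢ| rᵢ)) e(∑ 2 Re(αᵢ zᵢ))`.  Existence for cusp eigenforms, uniqueness,
linearity, equivariance under `diag(a, 1)` and unipotents, and the finite additive character.
-/

set_option autoImplicit false

noncomputable section

namespace Fermat.Agent.LT.Adelic

open NumberField IsDedekindDomain Matrix
open scoped Real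

variable {K : Type*} [Field K] [NumberField K] {ι : Type*} [Fintype ι]
  {Φ : Frame K ι} {U : Subgroup (GfK K)} {φ ψ : Space Φ U → ℂ} {y : Yf U} {c c' : K → ℂ}

theorem IsWhittakerAt.unique (h : IsWhittakerAt φ y c) (h' : IsWhittakerAt φ y c') : c = c' :=
  isWhittakerAt_unique h h'

theorem IsWhittakerAt.whitCoeff_eq (h : IsWhittakerAt φ y c) : whitCoeff φ y = c := by
  have hex : ∃ c, IsWhittakerAt φ y c := ⟨c, h⟩
  rw [whitCoeff, dif_pos hex]
  exact hex.choose_spec.unique h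

theorem IsWhittakerAt.add (h : IsWhittakerAt φ y c) (h' : IsWhittakerAt ψ y c') :
    IsWhittakerAt (φ + ψ) y (c + c') where
  zero := by simp [h.zero, h'.zero]
  support := by
    obtain ⟨M₁, hM₁, hs₁⟩ := h.support
    obtain ⟨M₂, hM₂, hs₂⟩ := h'.support
    refine ⟨M₁ * M₂, mul_ne_zero hM₁ hM₂, fun α hα => ?_⟩
    rcases eq_or_ne (c α) 0 with h0 | h0
    · have h1 : c' α ≠ 0 := fun h1 => hα (by simp [h0, h1])
      simpa [mul_assoc] using isIntegral_natCast_mul M₁ (hs₂ α h1)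
    · simpa [mul_assoc, mul_comm (M₁ : K), mul_left_comm] using isIntegral_natCast_mul M₂ (hs₁ α h0)
  hasSum τ := by
    simpa [add_mul] using (h.hasSum τ).add (h'.hasSum τ)

theorem IsWhittakerAt.smul (a : ℂ) (h : IsWhittakerAt φ y c) :
    IsWhittakerAt (a • φ) y (a • c) where
  zero := by simp [h.zero]
  support := by
    obtain ⟨M, hM, hs⟩ := h.support
    exact ⟨M, hM, fun α hα => hs α fun h0 => hα (by simp [h0])⟩
  hasSum τ := by
    simpa [mul_assoc] using (h.hasSum τ).mul_left a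

/-- The expansion of a Hecke translate. -/
theorem isWhittakerAt_heckeOp (hU : IsLevel U) (hall : ∀ y, IsWhittakerAt φ y (whitCoeff φ y))
    (D : GfK K) (y : Yf U) :
    IsWhittakerAt (heckeOp D φ) y fun α => ∑ᶠ y' ∈ nbrs D y, whitCoeff φ y' α := by
  classical
  have hfin := finite_nbrs hU D y
  have e : ∀ f : Yf U → ℂ, ∑ᶠ y' ∈ nbrs D y, f y' = ∑ y' ∈ hfin.toFinset, f y' := fun f =>
    finsum_mem_eq_finite_toFinset_sum f hfin
  choose M hM hs using fun y' => (hall y').support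
  refine ⟨?_, ⟨∏ y' ∈ hfin.toFinset, M y', Finset.prod_ne_zero_iff.mpr fun y' _ => hM y',
    fun α hα => ?_⟩, fun τ => ?_⟩
  · rw [e]; exact Finset.sum_eq_zero fun y' _ => (hall y').zero
  · simp only [e] at hα
    obtain ⟨y', hy', hne⟩ := Finset.exists_ne_zero_of_sum_ne_zero hα
    rw [← Finset.prod_erase_mul _ _ hy', Nat.cast_mul, mul_assoc]
    exact isIntegral_natCast_mul _ (hs y' α hne)
  · simp only [e, heckeOp_mk, Finset.sum_mul]
    exact hasSum_sum fun y' _ => (hall y').hasSum τ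

theorem whitCoeff_diag (hinv : IsInvariant φ) (hall : ∀ y, IsWhittakerAt φ y (whitCoeff φ y))
    (a : Kˣ) (y : Yf U) (α : K) :
    whitCoeff φ (toGf K (diag2 a 1) • y) α * ((∏ i, ‖Φ.emb i (a : K)‖ : ℝ) : ℂ) =
      whitCoeff φ y (α * a) := by
  rw [((hall _).comp_diag hinv a).whitCoeff_eq (y := y)]
  simp [mul_assoc, a.ne_zero]

theorem whitCoeff_unipotent_global (hinv : IsInvariant φ)
    (hall : ∀ y, IsWhittakerAt φ y (whitCoeff φ y)) (x : K) (y : Yf U) (α : K) :
    whitCoeff φ (toGf K (unipotent x) • y) α =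
      Poisson.eC (-((Algebra.trace ℚ K (α * x) : ℚ) : ℝ)) * whitCoeff φ y α := by
  rw [((hall _).comp_unipotent hinv x).whitCoeff_eq (y := y), mul_left_comm, ← Poisson.eC_add,
    neg_add_cancel, Poisson.eC_zero, mul_one]

theorem whitCoeff_unipotent (hU : IsLevel U) (hinv : IsInvariant φ)
    (hall : ∀ y, IsWhittakerAt φ y (whitCoeff φ y)) (t : FiniteAdeleRing (𝓞 K) K) (y : Yf U)
    (α : K) :
    whitCoeff φ ((unipotent t : GfK K) • y) α =
      psiF (algebraMap K (FiniteAdeleRing (𝓞 K) K) α * t) * whitCoeff φ y α := by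
  obtain ⟨M, hM, hfix⟩ := exists_unipotent_smul_eq hU y
  obtain ⟨N, hN, hNs⟩ := (hall y).support
  have hn : ((M * N : ℕ) : 𝓞 K) ≠ 0 := Nat.cast_ne_zero.mpr (mul_ne_zero hM hN)
  obtain ⟨x, hx⟩ := exists_memMul_sub t hn
  set t' := t - algebraMap K (FiniteAdeleRing (𝓞 K) K) x with ht'
  have hy : (unipotent t : GfK K) • y = toGf K (unipotent x) • y := by
    have e : (unipotent t : GfK K) = toGf K (unipotent x) * unipotent t' := by
      rw [toGf_unipotent]
      apply GL.ext_fin_two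
      ext i j; fin_cases i <;> fin_cases j <;> simp [Matrix.mul_apply, Fin.sum_univ_two, ht']
    rw [e, mul_smul, hfix t' (hx.of_dvd ⟨(N : 𝓞 K), by push_cast; ring⟩)]
  rw [hy, whitCoeff_unipotent_global hinv hall]
  rcases eq_or_ne (whitCoeff φ y α) 0 with h0 | h0
  · rw [h0, mul_zero, mul_zero]
  congr 1
  rw [psiF_apply_of_sub_mem (x := α * x)]
  rw [map_mul, ← mul_sub, ← ht']
  intro v
  rw [coe_apply_mul, map_mul, valued_algebraMap]
  set z : 𝓞 K := ⟨(N : K) * α, hNs α h0⟩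
  have h1 : v.valuation K α * v.intValuation ((N : 𝓞 K)) = v.intValuation z := by
    rw [← v.valuation_of_algebraMap (K := K), ← v.valuation_of_algebraMap (K := K) z, ← map_mul,
      mul_comm]
    congr 1
  calc v.valuation K α * Valued.v (t' v) ≤ v.valuation K α * v.intValuation ((M * N : ℕ) : 𝓞 K) :=
        mul_le_mul_right (hx v) _
    _ = v.intValuation z * v.intValuation (M : 𝓞 K) := by
        rw [Nat.cast_mul, map_mul, mul_comm (v.intValuation (M : 𝓞 K)), ← mul_assoc, h1]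
    _ ≤ 1 := mul_le_one' (v.intValuation_le_one _) (v.intValuation_le_one _)

variable [DecidableEq ι]

theorem _root_.Fermat.Agent.LT.IsCuspEigen.isWhittakerAt (hU : IsLevel U) (hφ : LT.IsCuspEigen φ)
    (y : Yf U) : IsWhittakerAt φ y (whitCoeff φ y) := by
  obtain ⟨C, hC⟩ := hφ.bounded
  obtain ⟨c, hc, -⟩ := exists_isWhittakerAt hU hφ hC y
  rwa [hc.whitCoeff_eq]

theorem _root_.Fermat.Agent.LT.IsCuspEigen.exists_whitCoeff_ne_zero (hU : IsLevel U)
    (hφ : LT.IsCuspEigen φ) : ∃ y α, whitCoeff φ y α ≠ 0 := by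
  by_contra hno
  push Not at hno
  obtain ⟨x, hx⟩ := hφ.nonzero
  refine hx ?_
  have h := (hφ.isWhittakerAt hU x.fin).hasSum x.pt
  simp only [hno, zero_mul, Space.mk_pt_fin] at h
  exact h.unique hasSum_zero

/-- The bound at every height. -/
theorem _root_.Fermat.Agent.LT.IsCuspEigen.norm_whitCoeff_mul_le (hU : IsLevel U)
    (hφ : LT.IsCuspEigen φ) {C : ℝ} (hC : ∀ x, ‖φ x‖ ≤ C) (y : Yf U) (α : K) {r : ι → ℝ}
    (hr : ∀ i, 0 < r i) : ‖whitCoeff φ y α‖ * whitHeight Φ α r ≤ C := by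
  obtain ⟨c, hc, hb⟩ := exists_isWhittakerAt hU hφ hC y
  rw [hc.whitCoeff_eq]
  exact hb α r hr

/-- The trivial bound. -/
theorem _root_.Fermat.Agent.LT.IsCuspEigen.exists_norm_whitCoeff_le (hU : IsLevel U)
    (hφ : LT.IsCuspEigen φ) :
    ∃ C : ℝ, ∀ (y : Yf U) (α : K), ‖whitCoeff φ y α‖ ≤ C * ∏ i, ‖Φ.emb i α‖ := by
  obtain ⟨C, hC⟩ := hφ.bounded
  set k := Theta.besselK0 (4 * π)
  have hk : 0 < k := Theta.besselK0_pos (by positivity)
  refine ⟨C / k ^ Fintype.card ι, fun y α => ?_⟩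
  have hC0 : 0 ≤ C := (norm_nonneg _).trans (hC (Space.mk (fun _ => HSpace.base) y))
  rcases eq_or_ne α 0 with rfl | hα
  · rw [(hφ.isWhittakerAt hU y).zero, norm_zero]
    exact mul_nonneg (div_nonneg hC0 (by positivity)) (Finset.prod_nonneg fun i _ => norm_nonneg _)
  · have ha : ∀ i, 0 < ‖Φ.emb i α‖ := fun i => norm_pos_iff.mpr (by simpa using hα)
    have hr : ∀ i, 0 < ‖Φ.emb i α‖⁻¹ := fun i => inv_pos.mpr (ha i)
    have h := hφ.norm_whitCoeff_mul_le hU hC y α hr
    have e : whitHeight Φ α (fun i => ‖Φ.emb i α‖⁻¹) =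
        k ^ Fintype.card ι / ∏ i, ‖Φ.emb i α‖ := by
      rw [whitHeight, ← Finset.card_univ, ← Finset.prod_const, ← Finset.prod_div_distrib]
      refine Finset.prod_congr rfl fun i _ => ?_
      rw [mul_assoc (4 * π), mul_inv_cancel₀ (ha i).ne', mul_one, div_eq_inv_mul]
    rw [e, mul_div_assoc', div_le_iff₀ (Finset.prod_pos fun i _ => ha i)] at h
    rw [div_mul_eq_mul_div, le_div_iff₀ (by positivity)]
    exact h

end Fermat.Agent.LT.Adelic

end
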