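import Fermat.Agent.LT.Adelic.HypMeasure
import Fermat.Agent.LT.Adelic.Approx
import Mathlib.MeasureTheory.Constructions.Pi
import Mathlib.MeasureTheory.MeasurableSpace.Prod
import Mathlib.NumberTheory.NumberField.ClassNumber

/-!
# The measurable space and the invariant measure on the automorphic space

`Space Φ U` carries the product of `∏ dz dr / r³` and the counting measure on the countable set
`Yf U`.
-/

set_option autoImplicit false
set_option maxHeartbeats 400000

noncomputable section

namespace Fermat.Agent.LT.Adelic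

open IsDedekindDomain NumberField Matrix MeasureTheory

variable {K : Type*} [Field K] [NumberField K]

theorem countable_numberField (K : Type*) [Field K] [NumberField K] : Countable K :=
  Countable.of_equiv _ (Module.finBasis ℚ K).equivFun.symm.toEquiv

theorem countable_glK (K : Type*) [Field K] [NumberField K] : Countable (GL (Fin 2) K) := by
  haveI := countable_numberField K
  haveI : Countable (Matrix (Fin 2) (Fin 2) K) := inferInstanceAs (Countable (Fin 2 → Fin 2 → K))
  exact Units.val_injective.countable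

instance : Countable (GL (Fin 2) K) := countable_glK K

theorem toGfR_eq_toGf : (toGfR : GL (Fin 2) K →* GfK K) = toGf K := rfl

/-- Finitely many `GL₂(K)`-orbits on `Yf U`. -/
theorem exists_finite_yf_reps {U : Subgroup (GfK K)} (hU : IsLevel U) :
    ∃ T : Set (Yf U), T.Finite ∧ ∀ y : Yf U, ∃ γ : GL (Fin 2) K, ∃ t ∈ T, y = toGf K γ • t := by
  obtain ⟨n, hn, hnU, -⟩ := hU
  obtain ⟨T, hT, hcov⟩ := exists_finite_reps (R := 𝓞 K) (K := K)
  let q : GfK K → GfK K ⧸ principalLevel K n → Yf U := fun t => Quotient.lift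
    (fun u => ((t * u : GfK K) : Yf U)) fun a b hab => by
      refine QuotientGroup.eq.mpr (le_levelZ U (hnU ?_))
      rw [_root_.mul_inv_rev, mul_assoc, inv_mul_cancel_left]
      exact QuotientGroup.leftRel_apply.mp hab
  refine ⟨⋃ t ∈ T, q t '' ((fun g : GfK K => (g : GfK K ⧸ principalLevel K n)) ''
    (principalLevel K (1 : 𝓞 K) : Set (GfK K))), ?_, fun y => ?_⟩
  · exact hT.biUnion fun t _ => (finite_image_principalLevel hn).image _
  · induction y using QuotientGroup.induction_on with
    | _ g =>
      obtain ⟨γ, t, ht, u, hu, rfl⟩ := hcov g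
      refine ⟨γ, ((t * u : GfK K) : Yf U), Set.mem_biUnion ht ⟨_, ⟨u, hu, rfl⟩, rfl⟩, ?_⟩
      rw [show toGf K γ • ((t * u : GfK K) : Yf U) = ((toGf K γ * (t * u) : GfK K) : Yf U) from rfl,
        mul_assoc]
      rfl

theorem countable_yf {U : Subgroup (GfK K)} (hU : IsLevel U) : Countable (Yf U) := by
  obtain ⟨T, hT, hcov⟩ := exists_finite_yf_reps hU
  haveI := hT.to_subtype
  exact Function.Surjective.countable (f := fun p : GL (Fin 2) K × T => toGf K p.1 • (p.2 : Yf U))
    fun y => by
      obtain ⟨γ, t, ht, rfl⟩ := hcov y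
      exact ⟨(γ, ⟨t, ht⟩), rfl⟩

theorem smul_center_yf {U : Subgroup (GfK K)} {z : GfK K} (hz : z ∈ centerGf (𝓞 K) K) (y : Yf U) :
    z • y = y := by
  induction y using QuotientGroup.induction_on with
  | _ g =>
    refine QuotientGroup.eq.mpr ((le_sup_right : centerGf _ _ ≤ levelZ U) ?_)
    show (z * g)⁻¹ * g ∈ _
    rw [centerGf_comm hz, _root_.mul_inv_rev, inv_mul_cancel_right]
    exact inv_mem hz

theorem toGf_scalar_mem_center (c : Kˣ) : toGf K (diag2 c c) ∈ centerGf (𝓞 K) K :=
  ⟨Units.map (algebraMap K (FiniteAdeleRing (𝓞 K) K)).toMonoidHom c, by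
    apply GL.ext_fin_two
    ext i j; fin_cases i <;> fin_cases j <;> simp [scalarHom, toGf]⟩

theorem HSpace.smul_diag2_self (c : ℂˣ) (p : HSpace) : diag2 c c • p = p := by
  refine HSpace.ext ?_ ?_
  · simp [HSpace.smul_z, HSpace.denSq, Complex.normSq_eq_conj_mul_self]
    field_simp [c.ne_zero, (map_ne_zero (starRingEnd ℂ)).mpr c.ne_zero]
  · have hc : 0 < ‖(c : ℂ)‖ := norm_pos_iff.mpr c.ne_zero
    simp [HSpace.smul_r, HSpace.denSq, HSpace.absDet, Complex.normSq_eq_norm_sq]
    field_simp

variable {ι : Type*} {Φ : Frame K ι} {U : Subgroup (GfK K)}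

theorem Space.smul_scalar (c : Kˣ) (x : Space Φ U) : diag2 c c • x = x := by
  have h : ∀ i, Φ.toInf i (diag2 c c) = diag2 (Units.map (Φ.emb i).toMonoidHom c)
      (Units.map (Φ.emb i).toMonoidHom c) := fun i => by
    apply GL.ext_fin_two
    ext a b; fin_cases a <;> fin_cases b <;> simp [Frame.toInf]
  show Space.mk _ _ = x
  simp only [h, HSpace.smul_diag2_self, smul_center_yf (toGf_scalar_mem_center c)]
  exact Space.mk_pt_fin x

instance : MeasurableSpace (Space Φ U) :=
  MeasurableSpace.comap Space.pt inferInstance ⊔ MeasurableSpace.comap Space.fin ⊤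

theorem Space.measurable_pt : Measurable (Space.pt : Space Φ U → ι → HSpace) :=
  measurable_iff_comap_le.mpr le_sup_left

theorem Space.measurableSet_fin (s : Set (Yf U)) :
    MeasurableSet (Space.fin ⁻¹' s : Set (Space Φ U)) :=
  (le_sup_right : MeasurableSpace.comap Space.fin ⊤ ≤ (inferInstance : MeasurableSpace (Space Φ U))) _
    ⟨s, trivial, rfl⟩

theorem Space.measurable_mk (y : Yf U) :
    Measurable fun τ : ι → HSpace => Space.mk (Φ := Φ) τ y := by
  rw [measurable_iff_comap_le]
  show MeasurableSpace.comap _ (MeasurableSpace.comap Space.pt inferInstance ⊔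
    MeasurableSpace.comap Space.fin ⊤) ≤ _
  rw [MeasurableSpace.comap_sup, sup_le_iff, MeasurableSpace.comap_comp, MeasurableSpace.comap_comp]
  refine ⟨?_, ?_⟩
  · exact MeasurableSpace.comap_id.le
  · rintro s ⟨t, -, rfl⟩
    by_cases hy : y ∈ t
    · rw [show ((Space.fin : Space Φ U → Yf U) ∘ fun τ => Space.mk τ y) ⁻¹' t = Set.univ from
        Set.eq_univ_of_forall fun τ => hy]
      exact MeasurableSet.univ
    · rw [show ((Space.fin : Space Φ U → Yf U) ∘ fun τ => Space.mk τ y) ⁻¹' t = ∅ from
        Set.eq_empty_of_forall_notMem fun τ h => hy h]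
      exact MeasurableSet.empty

/-- A map out of the space is measurable iff it is measurable on every slice. -/
theorem Space.measurable_iff [Countable (Yf U)] {β : Type*} [MeasurableSpace β]
    {f : Space Φ U → β} :
    Measurable f ↔ ∀ y : Yf U, Measurable fun τ : ι → HSpace => f (Space.mk τ y) := by
  refine ⟨fun hf y => hf.comp (Space.measurable_mk y), fun h s hs => ?_⟩
  have : f ⁻¹' s = ⋃ y : Yf U, Space.pt ⁻¹' ((fun τ => f (Space.mk τ y)) ⁻¹' s) ∩
      Space.fin ⁻¹' {y} := by
    ext x
    simp only [Set.mem_iUnion, Set.mem_inter_iff, Set.mem_preimage, Set.mem_singleton_iff]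
    refine ⟨fun hx => ⟨x.fin, by rwa [Space.mk_pt_fin], rfl⟩, ?_⟩
    rintro ⟨y, hx, rfl⟩
    rwa [Space.mk_pt_fin] at hx
  rw [this]
  exact MeasurableSet.iUnion fun y =>
    (Space.measurable_pt (h y hs)).inter (Space.measurableSet_fin _)

omit [NumberField K] in
theorem Frame.measurable_smul (Φ : Frame K ι) (γ : GL (Fin 2) K) :
    Measurable fun τ : ι → HSpace => fun i => Φ.toInf i γ • τ i :=
  measurable_pi_lambda _ fun i => (measurable_const_smul _).comp (measurable_pi_apply i)

instance [Countable (Yf U)] : MeasurableConstSMul (GL (Fin 2) K) (Space Φ U) :=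
  ⟨fun γ => Space.measurable_iff.mpr fun y =>
    (Space.measurable_mk (toGf K γ • y)).comp (Φ.measurable_smul γ)⟩

variable [Fintype ι]

variable (Φ U) in
/-- The invariant measure: hyperbolic volume times counting. -/
def Space.measure : Measure (Space Φ U) :=
  Measure.sum fun y : Yf U =>
    (Measure.pi fun _ : ι => HSpace.measure).map fun τ => Space.mk τ y

theorem Space.lintegral_measure {f : Space Φ U → ENNReal} (hf : Measurable f) :
    ∫⁻ x, f x ∂Space.measure Φ U =
      ∑' y : Yf U, ∫⁻ τ, f (Space.mk τ y) ∂(Measure.pi fun _ : ι => HSpace.measure) := by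
  rw [Space.measure, lintegral_sum_measure]
  exact tsum_congr fun y => lintegral_map hf (Space.measurable_mk y)

instance [Countable (Yf U)] : SFinite (Space.measure Φ U) := by
  unfold Space.measure
  infer_instance

omit [NumberField K] in
theorem Frame.measurePreserving_smul (Φ : Frame K ι) (γ : GL (Fin 2) K) :
    MeasurePreserving (fun τ : ι → HSpace => fun i => Φ.toInf i γ • τ i)
      (Measure.pi fun _ : ι => HSpace.measure) (Measure.pi fun _ : ι => HSpace.measure) :=
  measurePreserving_pi _ _ fun i => HSpace.measurePreserving_const_smul _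

theorem Space.map_smul_measure [Countable (Yf U)] (γ : GL (Fin 2) K) :
    (Space.measure Φ U).map (fun x : Space Φ U => γ • x) = Space.measure Φ U := by
  have hm := measurable_const_smul (α := Space Φ U) γ
  conv_rhs => rw [Space.measure, ← Measure.sum_comp_equiv (MulAction.toPerm (toGf K γ))]
  rw [Space.measure, Measure.map_sum hm.aemeasurable]
  congr 1
  funext y
  rw [Measure.map_map hm (Space.measurable_mk y)]
  show Measure.map ((fun τ => Space.mk τ (toGf K γ • y)) ∘
    fun τ : ι → HSpace => fun i => Φ.toInf i γ • τ i) _ = _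
  rw [← Measure.map_map (Space.measurable_mk _) (Φ.measurable_smul γ),
    (Φ.measurePreserving_smul γ).map_eq]
  rfl

instance [Countable (Yf U)] : SMulInvariantMeasure (GL (Fin 2) K) (Space Φ U) (Space.measure Φ U) where
  measure_preimage_smul γ s hs := by
    rw [← Measure.map_apply (measurable_const_smul γ) hs, Space.map_smul_measure]

end Fermat.Agent.LT.Adelic

end
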