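import Mathlib.RingTheory.DedekindDomain.FiniteAdeleRing
import Mathlib.RingTheory.DedekindDomain.Ideal.Lemmas
import Mathlib.NumberTheory.NumberField.Completion.FinitePlace

/-!
# Integral finite adeles, congruences, additive strong approximation

`intAdele R K` is the ring of integral finite adeles and `MemMul n a` says that `a ∈ n · intAdele`.
Every finite adele is congruent to an element of `K` modulo any `n ≠ 0`.
-/

set_option autoImplicit false
set_option maxHeartbeats 400000

noncomputable section

namespace Fermat.Agent.LT.Adelic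

open IsDedekindDomain IsDedekindDomain.HeightOneSpectrum

variable {R : Type*} [CommRing R] [IsDedekindDomain R] {K : Type*} [Field K] [Algebra R K]
  [IsFractionRing R K]

theorem coe_apply_add (a b : FiniteAdeleRing R K) (v : HeightOneSpectrum R) :
    (a + b) v = a v + b v := rfl

theorem coe_apply_mul (a b : FiniteAdeleRing R K) (v : HeightOneSpectrum R) :
    (a * b) v = a v * b v := rfl

theorem coe_apply_sub (a b : FiniteAdeleRing R K) (v : HeightOneSpectrum R) :
    (a - b) v = a v - b v := rfl

theorem coe_apply_neg (a : FiniteAdeleRing R K) (v : HeightOneSpectrum R) :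
    (-a) v = -a v := rfl

theorem coe_apply_zero (v : HeightOneSpectrum R) : (0 : FiniteAdeleRing R K) v = 0 := rfl

theorem coe_apply_one (v : HeightOneSpectrum R) : (1 : FiniteAdeleRing R K) v = 1 := rfl

variable (R K) in
/-- The integral finite adeles. -/
def intAdele : Subring (FiniteAdeleRing R K) where
  carrier := {a | ∀ v, Valued.v (a v) ≤ 1}
  one_mem' v := by rw [coe_apply_one, map_one]
  zero_mem' v := by rw [coe_apply_zero, map_zero]; exact zero_le
  add_mem' ha hb v := by
    rw [coe_apply_add]; exact le_trans (Valuation.map_add _ _ _) (max_le (ha v) (hb v))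
  neg_mem' ha v := by rw [coe_apply_neg, Valuation.map_neg]; exact ha v
  mul_mem' ha hb v := by rw [coe_apply_mul, map_mul]; exact mul_le_one' (ha v) (hb v)

theorem mem_intAdele {a : FiniteAdeleRing R K} :
    a ∈ intAdele R K ↔ ∀ v, Valued.v (a v) ≤ 1 := Iff.rfl

theorem valued_algebraMap (x : K) (v : HeightOneSpectrum R) :
    Valued.v ((algebraMap K (FiniteAdeleRing R K) x) v) = v.valuation K x := by
  rw [FiniteAdeleRing.algebraMap_apply, adicCompletion.valued_coe]

theorem valued_algebraMap_int (r : R) (v : HeightOneSpectrum R) :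
    Valued.v ((algebraMap R (FiniteAdeleRing R K) r) v) = v.intValuation r := by
  rw [IsScalarTower.algebraMap_apply R K (FiniteAdeleRing R K), valued_algebraMap,
    valuation_of_algebraMap]

theorem algebraMap_mem_intAdele (r : R) :
    algebraMap R (FiniteAdeleRing R K) r ∈ intAdele R K := fun v => by
  rw [valued_algebraMap_int]; exact intValuation_le_one v r

/-- Congruent to zero modulo `n`. -/
def MemMul (n : R) (a : FiniteAdeleRing R K) : Prop :=
  ∀ v : HeightOneSpectrum R, Valued.v (a v) ≤ v.intValuation n

theorem memMul_one_iff {a : FiniteAdeleRing R K} : MemMul (1 : R) a ↔ a ∈ intAdele R K := by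
  simp [MemMul, mem_intAdele]

theorem MemMul.mem_intAdele {n : R} {a : FiniteAdeleRing R K} (h : MemMul n a) :
    a ∈ intAdele R K := fun v => (h v).trans (intValuation_le_one v n)

theorem memMul_zero_right (n : R) : MemMul n (0 : FiniteAdeleRing R K) := fun v => by
  rw [coe_apply_zero, map_zero]; exact zero_le

theorem MemMul.add {n : R} {a b : FiniteAdeleRing R K} (ha : MemMul n a) (hb : MemMul n b) :
    MemMul n (a + b) := fun v => by
  rw [coe_apply_add]; exact le_trans (Valuation.map_add _ _ _) (max_le (ha v) (hb v))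

theorem MemMul.neg {n : R} {a : FiniteAdeleRing R K} (ha : MemMul n a) : MemMul n (-a) := fun v => by
  rw [coe_apply_neg, Valuation.map_neg]; exact ha v

theorem MemMul.sub {n : R} {a b : FiniteAdeleRing R K} (ha : MemMul n a) (hb : MemMul n b) :
    MemMul n (a - b) := by
  rw [sub_eq_add_neg]; exact ha.add hb.neg

theorem MemMul.mul {m n : R} {a b : FiniteAdeleRing R K} (ha : MemMul m a) (hb : MemMul n b) :
    MemMul (m * n) (a * b) := fun v => by
  rw [coe_apply_mul, map_mul, map_mul]; exact mul_le_mul' (ha v) (hb v)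

theorem MemMul.mul_int {n : R} {a b : FiniteAdeleRing R K} (ha : MemMul n a)
    (hb : b ∈ intAdele R K) : MemMul n (a * b) := by
  simpa using ha.mul (memMul_one_iff.mpr hb)

theorem MemMul.int_mul {n : R} {a b : FiniteAdeleRing R K} (ha : a ∈ intAdele R K)
    (hb : MemMul n b) : MemMul n (a * b) := by
  rw [mul_comm]; exact hb.mul_int ha

theorem MemMul.of_dvd {m n : R} {a : FiniteAdeleRing R K} (h : MemMul m a) (hd : n ∣ m) :
    MemMul n a := fun v => (h v).trans (by
  obtain ⟨c, rfl⟩ := hd
  rw [map_mul]
  exact mul_le_of_le_one_right' (intValuation_le_one v c))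

theorem memMul_algebraMap (n : R) : MemMul n (algebraMap R (FiniteAdeleRing R K) n) := fun v => by
  rw [valued_algebraMap_int]

theorem MemMul.sum {ι : Type*} {n : R} (s : Finset ι) {a : ι → FiniteAdeleRing R K}
    (h : ∀ i ∈ s, MemMul n (a i)) : MemMul n (∑ i ∈ s, a i) :=
  Finset.sum_induction a (MemMul n) (fun _ _ hx hy => hx.add hy) (memMul_zero_right n) h

/-- The finitely many primes dividing `n`. -/
theorem finite_primes_dvd {n : R} (hn : n ≠ 0) :
    {v : HeightOneSpectrum R | v.intValuation n < 1}.Finite := by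
  simp_rw [intValuation_lt_one_iff_dvd]
  apply Ideal.finite_factors
  simpa using hn

/-- An integral element of a completion is congruent to an element of `R`. -/
theorem exists_int_sub_le (v : HeightOneSpectrum R) {x : v.adicCompletion K}
    (hx : Valued.v x ≤ 1) (e : ℕ) :
    ∃ r : R, Valued.v (x - algebraMap K (v.adicCompletion K) (algebraMap R K r)) ≤
      WithZero.exp (-(e : ℤ)) := by
  obtain ⟨k, hk⟩ : ∃ k : K, Valued.v (x - algebraMap K (v.adicCompletion K) k) ≤
      WithZero.exp (-(e : ℤ)) := by
    obtain ⟨π, hπ⟩ := valuedAdicCompletion_surjective K v (WithZero.exp (-(e : ℤ)))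
    have hπ0 : Valued.v π ≠ 0 := by rw [hπ]; exact WithZero.exp_ne_zero
    have hU : {y : v.adicCompletion K | Valued.v (x - y) ≤ Valued.v π} ∈ nhds x := by
      refine Filter.mem_of_superset ((Valued.mem_nhds).mpr ⟨Units.mk0 (Valued.v.restrict π)
        (by simpa using hπ0), subset_rfl⟩) fun y hy => ?_
      rw [Set.mem_ofPred_eq, Units.val_mk0, Valuation.restrict_lt_iff] at hy
      rw [Set.mem_ofPred_eq, Valuation.map_sub_swap]
      exact hy.le
    obtain ⟨y, ⟨k, rfl⟩, hk⟩ := (denseRange_algebraMap K v).inter_nhds_nonempty hU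
    exact ⟨k, hπ ▸ hk⟩
  have hkint : v.valuation K k ≤ 1 := by
    rw [← adicCompletion.valued_coe]
    have : (k : v.adicCompletion K) = x - (x - algebraMap K (v.adicCompletion K) k) := by
      rw [sub_sub_cancel, algebraMap_adicCompletion]; rfl
    rw [this]
    exact le_trans (Valuation.map_sub _ _ _) (max_le hx (hk.trans (by
      rw [← WithZero.exp_zero, WithZero.exp_le_exp]; omega)))
  obtain ⟨r, hr⟩ := exists_valuation_sub_lt_of_integer v hkint
    (γ := Units.mk0 (WithZero.exp (-(e : ℤ))) WithZero.exp_ne_zero)
  refine ⟨r, ?_⟩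
  have : x - algebraMap K (v.adicCompletion K) (algebraMap R K r) =
      (x - algebraMap K (v.adicCompletion K) k) +
        algebraMap K (v.adicCompletion K) (k - algebraMap R K r) := by
    rw [map_sub]; ring
  rw [this]
  refine le_trans (Valuation.map_add _ _ _) (max_le hk ?_)
  rw [algebraMap_adicCompletion]
  simp only [Function.comp_apply, Algebra.algebraMap_self, RingHom.id_apply,
    adicCompletion.valued_coe]
  rw [Valuation.map_sub_swap]
  exact hr.le

/-- Every integral finite adele is congruent to an element of `R` modulo `n ≠ 0`. -/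
theorem exists_int_memMul {a : FiniteAdeleRing R K} (ha : a ∈ intAdele R K) {n : R} (hn : n ≠ 0) :
    ∃ r : R, MemMul n (a - algebraMap R (FiniteAdeleRing R K) r) := by
  classical
  let S := (finite_primes_dvd hn).toFinset
  have he : ∀ v : HeightOneSpectrum R, ∃ e : ℕ, v.intValuation n = WithZero.exp (-(e : ℤ)) :=
    fun v => ⟨_, intValuation_if_neg v hn⟩
  choose e he using he
  choose x hx using fun v : HeightOneSpectrum R => exists_int_sub_le (K := K) v (ha v) (e v)
  obtain ⟨r, hr⟩ := exists_forall_sub_mem_ideal (s := S) (fun v => v.asIdeal) e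
    (fun v _ => v.prime) (fun v _ w _ hvw h => hvw (HeightOneSpectrum.ext h)) (fun v => x v)
  refine ⟨r, fun v => ?_⟩
  by_cases hv : v ∈ S
  · rw [coe_apply_sub, IsScalarTower.algebraMap_apply R K (FiniteAdeleRing R K),
      FiniteAdeleRing.algebraMap_apply]
    have hmap : ∀ y : K, (y : v.adicCompletion K) = algebraMap K (v.adicCompletion K) y := fun y => by
      rw [algebraMap_adicCompletion]; rfl
    have key : a v - (algebraMap R K r : v.adicCompletion K) =
        (a v - algebraMap K (v.adicCompletion K) (algebraMap R K (x v))) +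
          algebraMap K (v.adicCompletion K) (algebraMap R K (x v - r)) := by
      rw [hmap, map_sub, map_sub]; ring
    rw [key]
    refine le_trans (Valuation.map_add _ _ _) (max_le ((hx v).trans (he v).ge) ?_)
    rw [← hmap, adicCompletion.valued_coe, valuation_of_algebraMap, he v,
      intValuation_le_pow_iff_mem, ← neg_sub, Ideal.neg_mem_iff]
    exact hr v hv
  · have h1 : v.intValuation n = 1 := le_antisymm (intValuation_le_one v n)
      (not_lt.mp fun h => hv ((finite_primes_dvd hn).mem_toFinset.mpr h))
    rw [h1]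
    exact mem_intAdele.mp (sub_mem ha (algebraMap_mem_intAdele r)) v

/-- Every finite adele has a denominator in `R`. -/
theorem exists_den (a : FiniteAdeleRing R K) :
    ∃ d : R, d ≠ 0 ∧ algebraMap R (FiniteAdeleRing R K) d * a ∈ intAdele R K := by
  classical
  have hfin : {v : HeightOneSpectrum R | ¬ Valued.v (a v) ≤ 1}.Finite :=
    Filter.eventually_cofinite.mp a.2
  have key : ∀ v : HeightOneSpectrum R, ∃ d : R, d ≠ 0 ∧ v.intValuation d * Valued.v (a v) ≤ 1 := by
    intro v
    rcases eq_or_ne (Valued.v (a v)) 0 with h | h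
    · exact ⟨1, one_ne_zero, by rw [h, mul_zero]; exact zero_le⟩
    obtain ⟨π, hπ⟩ := intValuation_exists_uniformizer v
    have hπ0 : π ≠ 0 := fun h0 => by rw [h0, map_zero] at hπ; exact WithZero.exp_ne_zero hπ.symm
    refine ⟨π ^ (WithZero.log (Valued.v (a v))).toNat, pow_ne_zero _ hπ0, ?_⟩
    rw [map_pow, hπ, ← WithZero.exp_nsmul]
    conv_lhs => arg 2; rw [← WithZero.exp_log h]
    rw [← WithZero.exp_add, ← WithZero.exp_zero, WithZero.exp_le_exp]
    simp only [smul_eq_mul, nsmul_eq_mul]
    omega
  choose d hd0 hd using key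
  refine ⟨∏ v ∈ hfin.toFinset, d v, Finset.prod_ne_zero_iff.mpr fun v _ => hd0 v, fun v => ?_⟩
  rw [coe_apply_mul, map_mul, valued_algebraMap_int]
  by_cases hv : Valued.v (a v) ≤ 1
  · exact mul_le_one' (intValuation_le_one _ _) hv
  · rw [← Finset.mul_prod_erase _ _ (hfin.mem_toFinset.mpr hv), map_mul, mul_right_comm]
    exact mul_le_one' (hd v) (intValuation_le_one _ _)

/-- Additive strong approximation: `K` is dense in the finite adeles. -/
theorem exists_memMul_sub (a : FiniteAdeleRing R K) {n : R} (hn : n ≠ 0) :
    ∃ x : K, MemMul n (a - algebraMap K (FiniteAdeleRing R K) x) := by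
  obtain ⟨d, hd, had⟩ := exists_den a
  obtain ⟨r, hr⟩ := exists_int_memMul had (mul_ne_zero hd hn)
  refine ⟨algebraMap R K r / algebraMap R K d, fun v => ?_⟩
  have hdK : algebraMap R K d ≠ 0 := (map_ne_zero_iff _ (IsFractionRing.injective R K)).mpr hd
  have key : algebraMap R (FiniteAdeleRing R K) d *
      (a - algebraMap K (FiniteAdeleRing R K) (algebraMap R K r / algebraMap R K d)) =
      algebraMap R (FiniteAdeleRing R K) d * a - algebraMap R (FiniteAdeleRing R K) r := by
    rw [mul_sub, IsScalarTower.algebraMap_apply R K (FiniteAdeleRing R K),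
      IsScalarTower.algebraMap_apply R K (FiniteAdeleRing R K) r, ← map_mul,
      mul_div_cancel₀ _ hdK]
  have h := hr v
  rw [← key, coe_apply_mul, map_mul, valued_algebraMap_int, map_mul] at h
  exact (mul_le_mul_iff_of_pos_left (zero_lt_iff.mpr (intValuation_ne_zero v d hd))).mp h

end Fermat.Agent.LT.Adelic

end
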