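import Fermat.Agent.LT.Adelic.FinAdele
import Mathlib.LinearAlgebra.Matrix.GeneralLinearGroup.Defs
import Mathlib.GroupTheory.QuotientGroup.Basic
import Mathlib.Algebra.BigOperators.Fin
import Mathlib.Algebra.BigOperators.Finprod
import Mathlib.RingTheory.Ideal.Quotient.HasFiniteQuotients

/-!
# Congruence levels in `GL₂` of the finite adeles and Hecke neighbours

`principalLevel n` is the principal congruence subgroup of `GL₂(Ô)`; a level is a subgroup
between some `principalLevel n` and `principalLevel 1`.  `Yf U = GL₂(𝔸_f) / U·center` is the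
discrete space on which the finite part of the automorphic functions lives.
-/

set_option autoImplicit false
set_option maxHeartbeats 400000

noncomputable section

namespace Fermat.Agent.LT.Adelic

open IsDedekindDomain Matrix

variable (R K : Type*) [CommRing R] [IsDedekindDomain R] [Field K] [Algebra R K]
  [IsFractionRing R K]

/-- `GL₂` of the finite adeles. -/
abbrev Gf : Type _ := GL (Fin 2) (FiniteAdeleRing R K)

variable {R K}

/-- Entrywise congruence to zero. -/
def MatMemMul (n : R) (M : Matrix (Fin 2) (Fin 2) (FiniteAdeleRing R K)) : Prop :=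
  ∀ i j, MemMul n (M i j)

theorem MatMemMul.add {n : R} {M M' : Matrix (Fin 2) (Fin 2) (FiniteAdeleRing R K)}
    (h : MatMemMul n M) (h' : MatMemMul n M') : MatMemMul n (M + M') :=
  fun i j => (h i j).add (h' i j)

theorem MatMemMul.sub {n : R} {M M' : Matrix (Fin 2) (Fin 2) (FiniteAdeleRing R K)}
    (h : MatMemMul n M) (h' : MatMemMul n M') : MatMemMul n (M - M') :=
  fun i j => (h i j).sub (h' i j)

theorem MatMemMul.mul {m n : R} {M M' : Matrix (Fin 2) (Fin 2) (FiniteAdeleRing R K)}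
    (h : MatMemMul m M) (h' : MatMemMul n M') : MatMemMul (m * n) (M * M') := fun i j => by
  rw [Matrix.mul_apply]
  exact MemMul.sum _ fun k _ => (h i k).mul (h' k j)

theorem MatMemMul.of_dvd {m n : R} {M : Matrix (Fin 2) (Fin 2) (FiniteAdeleRing R K)}
    (h : MatMemMul m M) (hd : n ∣ m) : MatMemMul n M :=
  fun i j => (h i j).of_dvd hd

theorem matMemMul_one (M : Matrix (Fin 2) (Fin 2) (FiniteAdeleRing R K)) :
    MatMemMul (1 : R) M ↔ ∀ i j, M i j ∈ intAdele R K := by
  simp only [MatMemMul, memMul_one_iff]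

theorem matMemMul_one_one :
    MatMemMul (1 : R) (1 : Matrix (Fin 2) (Fin 2) (FiniteAdeleRing R K)) := by
  rw [matMemMul_one]
  intro i j
  rw [Matrix.one_apply]
  split
  · exact one_mem _
  · exact zero_mem _

theorem matMemMul_zero (n : R) :
    MatMemMul n (0 : Matrix (Fin 2) (Fin 2) (FiniteAdeleRing R K)) :=
  fun _ _ => memMul_zero_right n

theorem MatMemMul.int {n : R} {M : Matrix (Fin 2) (Fin 2) (FiniteAdeleRing R K)}
    (h : MatMemMul n (M - 1)) : MatMemMul (1 : R) M := by
  have := (h.of_dvd (one_dvd n)).add matMemMul_one_one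
  rwa [sub_add_cancel] at this

/-- Congruent to one modulo `n`, together with the inverse. -/
def InPrincipal (n : R) (g : Gf R K) : Prop :=
  MatMemMul n ((g : Matrix (Fin 2) (Fin 2) (FiniteAdeleRing R K)) - 1) ∧
    MatMemMul n (((g⁻¹ : Gf R K) : Matrix (Fin 2) (Fin 2) (FiniteAdeleRing R K)) - 1)

theorem inPrincipal_one (n : R) : InPrincipal n (1 : Gf R K) := by
  have h0 : MatMemMul n (((1 : Gf R K) : Matrix (Fin 2) (Fin 2) (FiniteAdeleRing R K)) - 1) := by
    rw [Units.val_one, sub_self]; exact matMemMul_zero n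
  exact ⟨h0, by rw [inv_one]; exact h0⟩

theorem InPrincipal.inv {n : R} {g : Gf R K} (h : InPrincipal n g) : InPrincipal n g⁻¹ :=
  ⟨h.2, by rw [inv_inv]; exact h.1⟩

theorem matMemMul_mul_sub_one {n : R} {a b : Gf R K}
    (ha : MatMemMul n ((a : Matrix (Fin 2) (Fin 2) (FiniteAdeleRing R K)) - 1))
    (hb : MatMemMul n ((b : Matrix (Fin 2) (Fin 2) (FiniteAdeleRing R K)) - 1)) :
    MatMemMul n (((a * b : Gf R K) : Matrix (Fin 2) (Fin 2) (FiniteAdeleRing R K)) - 1) := by
  have e : ((a * b : Gf R K) : Matrix (Fin 2) (Fin 2) (FiniteAdeleRing R K)) - 1 =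
      ((a : Matrix (Fin 2) (Fin 2) (FiniteAdeleRing R K)) - 1) * (b : Matrix (Fin 2) (Fin 2) (FiniteAdeleRing R K)) +
        ((b : Matrix (Fin 2) (Fin 2) (FiniteAdeleRing R K)) - 1) := by
    rw [Units.val_mul, sub_mul, one_mul]; abel
  rw [e]
  refine MatMemMul.add ?_ hb
  have := ha.mul hb.int
  rwa [mul_one] at this

theorem InPrincipal.mul {n : R} {g h : Gf R K} (hg : InPrincipal n g) (hh : InPrincipal n h) :
    InPrincipal n (g * h) :=
  ⟨matMemMul_mul_sub_one hg.1 hh.1, by
    rw [_root_.mul_inv_rev]; exact matMemMul_mul_sub_one hh.2 hg.2⟩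

variable (K) in
/-- The principal congruence subgroup modulo `n`. -/
def principalLevel (n : R) : Subgroup (Gf R K) where
  carrier := {g | InPrincipal n g}
  one_mem' := inPrincipal_one n
  inv_mem' := InPrincipal.inv
  mul_mem' := InPrincipal.mul

theorem mem_principalLevel {n : R} {g : Gf R K} :
    g ∈ principalLevel K n ↔ MatMemMul n ((g : Matrix (Fin 2) (Fin 2) (FiniteAdeleRing R K)) - 1) ∧
      MatMemMul n (((g⁻¹ : Gf R K) : Matrix (Fin 2) (Fin 2) (FiniteAdeleRing R K)) - 1) := Iff.rfl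

theorem mem_principalLevel_one {g : Gf R K} :
    g ∈ principalLevel K (1 : R) ↔ MatMemMul (1 : R) (g : Matrix (Fin 2) (Fin 2) (FiniteAdeleRing R K)) ∧
      MatMemMul (1 : R) ((g⁻¹ : Gf R K) : Matrix (Fin 2) (Fin 2) (FiniteAdeleRing R K)) :=
  ⟨fun h => ⟨h.1.int, h.2.int⟩,
    fun h => ⟨h.1.sub matMemMul_one_one, h.2.sub matMemMul_one_one⟩⟩

theorem principalLevel_mono {m n : R} (h : n ∣ m) : principalLevel K m ≤ principalLevel K n :=
  fun _ hg => ⟨hg.1.of_dvd h, hg.2.of_dvd h⟩

theorem exists_den_mat (M : Matrix (Fin 2) (Fin 2) (FiniteAdeleRing R K)) :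
    ∃ d : R, d ≠ 0 ∧ ∀ i j, algebraMap R _ d * M i j ∈ intAdele R K := by
  choose d hd0 hd using fun i j => exists_den (M i j)
  refine ⟨d 0 0 * d 0 1 * d 1 0 * d 1 1,
    mul_ne_zero (mul_ne_zero (mul_ne_zero (hd0 0 0) (hd0 0 1)) (hd0 1 0)) (hd0 1 1),
    fun i j => ?_⟩
  have hdvd : d i j ∣ d 0 0 * d 0 1 * d 1 0 * d 1 1 := by
    fin_cases i <;> fin_cases j
    exacts [(dvd_mul_right _ _).trans ((dvd_mul_right _ _).trans (dvd_mul_right _ _)),
      (dvd_mul_left _ _).trans ((dvd_mul_right _ _).trans (dvd_mul_right _ _)),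
      (dvd_mul_left _ _).trans (dvd_mul_right _ _), dvd_mul_left _ _]
  obtain ⟨c, hc⟩ := hdvd
  rw [hc, map_mul, mul_right_comm]
  exact mul_mem (hd i j) (algebraMap_mem_intAdele c)

/-- Conjugates of congruence subgroups contain congruence subgroups. -/
theorem exists_conj_le (g : Gf R K) {n : R} (hn : n ≠ 0) :
    ∃ m : R, m ≠ 0 ∧ ∀ x ∈ principalLevel K m, g * x * g⁻¹ ∈ principalLevel K n := by
  obtain ⟨d, hd, hgd⟩ := exists_den_mat (g : Matrix (Fin 2) (Fin 2) (FiniteAdeleRing R K))
  obtain ⟨e, he, hge⟩ :=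
    exists_den_mat ((g⁻¹ : Gf R K) : Matrix (Fin 2) (Fin 2) (FiniteAdeleRing R K))
  refine ⟨n * d * e, mul_ne_zero (mul_ne_zero hn hd) he, fun x hx => ?_⟩
  have key : ∀ x : Gf R K, MatMemMul (n * d * e) ((x : Matrix (Fin 2) (Fin 2) (FiniteAdeleRing R K)) - 1) →
      MatMemMul n (((g * x * g⁻¹ : Gf R K) : Matrix (Fin 2) (Fin 2) (FiniteAdeleRing R K)) - 1) := by
    intro x h
    have e1 : ((g * x * g⁻¹ : Gf R K) : Matrix (Fin 2) (Fin 2) (FiniteAdeleRing R K)) - 1 =
        (g : Matrix (Fin 2) (Fin 2) (FiniteAdeleRing R K)) * ((x : Matrix (Fin 2) (Fin 2) (FiniteAdeleRing R K)) - 1) *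
          ((g⁻¹ : Gf R K) : Matrix (Fin 2) (Fin 2) (FiniteAdeleRing R K)) := by
      rw [Units.val_mul, Units.val_mul, mul_sub, mul_one, sub_mul, Units.mul_inv]
    rw [e1]
    intro i j
    rw [Matrix.mul_apply]
    refine MemMul.sum _ fun k _ => ?_
    rw [Matrix.mul_apply, Finset.sum_mul]
    refine MemMul.sum _ fun l _ v => ?_
    have h1 : MemMul (n * d * e)
        (algebraMap R _ d * (g : Matrix (Fin 2) (Fin 2) (FiniteAdeleRing R K)) i l *
          ((x : Matrix (Fin 2) (Fin 2) (FiniteAdeleRing R K)) - 1) l k *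
          (algebraMap R _ e * ((g⁻¹ : Gf R K) : Matrix (Fin 2) (Fin 2) (FiniteAdeleRing R K)) k j)) :=
      (MemMul.int_mul (hgd i l) (h l k)).mul_int (hge k j)
    have h2 := h1 v
    simp only [coe_apply_mul, map_mul, valued_algebraMap_int] at h2
    simp only [coe_apply_mul, map_mul]
    have hd' : 0 < v.intValuation d := zero_lt_iff.mpr (v.intValuation_ne_zero d hd)
    have he' : 0 < v.intValuation e := zero_lt_iff.mpr (v.intValuation_ne_zero e he)
    rw [← mul_le_mul_iff_of_pos_left hd', ← mul_le_mul_iff_of_pos_left he']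
    convert! h2 using 1 <;> ac_rfl
  exact ⟨key x hx.1, by rw [_root_.mul_inv_rev, _root_.mul_inv_rev, inv_inv, ← mul_assoc]; exact key _ hx.2⟩

/-- Two elements of `GL₂(Ô)` congruent modulo `n` differ by an element of `principalLevel n`. -/
theorem inv_mul_mem_of_congr {n : R} {g h : Gf R K} (hg : g ∈ principalLevel K (1 : R))
    (hh : h ∈ principalLevel K (1 : R))
    (hgh : MatMemMul n ((h : Matrix (Fin 2) (Fin 2) (FiniteAdeleRing R K)) - (g : Matrix (Fin 2) (Fin 2) (FiniteAdeleRing R K)))) :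
    g⁻¹ * h ∈ principalLevel K n := by
  rw [mem_principalLevel_one] at hg hh
  constructor
  · have e : ((g⁻¹ * h : Gf R K) : Matrix (Fin 2) (Fin 2) (FiniteAdeleRing R K)) - 1 =
        ((g⁻¹ : Gf R K) : Matrix (Fin 2) (Fin 2) (FiniteAdeleRing R K)) *
          ((h : Matrix (Fin 2) (Fin 2) (FiniteAdeleRing R K)) - (g : Matrix (Fin 2) (Fin 2) (FiniteAdeleRing R K))) := by
      rw [Units.val_mul, mul_sub, Units.inv_mul]
    rw [e]
    have := hg.2.mul hgh
    rwa [one_mul] at this
  · have e : (((g⁻¹ * h)⁻¹ : Gf R K) : Matrix (Fin 2) (Fin 2) (FiniteAdeleRing R K)) - 1 =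
        ((h⁻¹ : Gf R K) : Matrix (Fin 2) (Fin 2) (FiniteAdeleRing R K)) *
          ((g : Matrix (Fin 2) (Fin 2) (FiniteAdeleRing R K)) - (h : Matrix (Fin 2) (Fin 2) (FiniteAdeleRing R K))) := by
      rw [_root_.mul_inv_rev, inv_inv, Units.val_mul, mul_sub, Units.inv_mul]
    rw [e]
    have : MatMemMul n ((g : Matrix (Fin 2) (Fin 2) (FiniteAdeleRing R K)) - (h : Matrix (Fin 2) (Fin 2) (FiniteAdeleRing R K))) := by
      intro i j
      have := (hgh i j).neg
      rwa [Matrix.sub_apply, neg_sub] at this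
    have := hh.2.mul this
    rwa [one_mul] at this

/-- `GL₂(Ô)` meets finitely many cosets of a congruence subgroup. -/
theorem finite_image_principalLevel [Ring.HasFiniteQuotients R] {n : R} (hn : n ≠ 0) :
    ((fun g : Gf R K => (g : Gf R K ⧸ principalLevel K n)) ''
      (principalLevel K (1 : R) : Set (Gf R K))).Finite := by
  classical
  have : Finite (R ⧸ Ideal.span ({n} : Set R)) :=
    Ring.HasFiniteQuotients.finiteQuotient (by simpa using hn)
  let S : Set (Gf R K) := principalLevel K (1 : R)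
  have hrep : ∀ g : S, ∀ i j, ∃ r : R,
      MemMul n ((g : Gf R K).1 i j - algebraMap R _ r) := fun g i j =>
    exists_int_memMul ((matMemMul_one _).mp (mem_principalLevel_one.mp g.2).1 i j) hn
  choose r hr using hrep
  let F : S → (Fin 2 → Fin 2 → R ⧸ Ideal.span ({n} : Set R)) := fun g i j => r g i j
  let G : S → Gf R K ⧸ principalLevel K n := fun g => ((g : Gf R K) : Gf R K ⧸ principalLevel K n)
  have hFG : ∀ g h : S, F g = F h → G g = G h := by
    intro g h hFh
    refine QuotientGroup.eq.mpr (inv_mul_mem_of_congr g.2 h.2 fun i j => ?_)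
    have hd : r h i j - r g i j ∈ Ideal.span ({n} : Set R) :=
      Ideal.Quotient.eq.mp (congrFun (congrFun hFh i) j).symm
    obtain ⟨c, hc⟩ := Ideal.mem_span_singleton'.mp hd
    have e : (h : Gf R K).1 i j - (g : Gf R K).1 i j =
        ((h : Gf R K).1 i j - algebraMap R _ (r h i j)) -
          ((g : Gf R K).1 i j - algebraMap R _ (r g i j)) + algebraMap R _ (c * n) := by
      rw [hc, map_sub]; ring
    rw [Matrix.sub_apply, e]
    refine ((hr h i j).sub (hr g i j)).add ?_
    rw [map_mul]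
    exact MemMul.int_mul (algebraMap_mem_intAdele c) (memMul_algebraMap n)
  rw [Set.image_eq_range]
  refine Set.Finite.subset ((Set.finite_univ (α := Fin 2 → Fin 2 → R ⧸ Ideal.span ({n} : Set R))).image
    (fun φ => if h : ∃ g : S, F g = φ then G h.choose
      else ((1 : Gf R K) : Gf R K ⧸ principalLevel K n))) ?_
  rintro _ ⟨g, rfl⟩
  exact ⟨F g, Set.mem_univ _, by
    have h : ∃ g' : S, F g' = F g := ⟨g, rfl⟩
    simp only [dif_pos h]
    exact hFG _ _ h.choose_spec⟩

variable (R K) in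
/-- The scalar matrices. -/
def scalarHom : (FiniteAdeleRing R K)ˣ →* Gf R K :=
  Units.map (Matrix.scalar (Fin 2) : FiniteAdeleRing R K →+* _).toMonoidHom

variable (R K) in
/-- The centre of `GL₂(𝔸_f)`. -/
def centerGf : Subgroup (Gf R K) := (scalarHom R K).range

theorem centerGf_comm {z : Gf R K} (hz : z ∈ centerGf R K) (g : Gf R K) : z * g = g * z := by
  obtain ⟨c, rfl⟩ := hz
  refine Units.ext ?_
  rw [Units.val_mul, Units.val_mul]
  exact Matrix.scalar_commute _ (fun r => Commute.all _ r) _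

instance centerGf_normal : (centerGf R K).Normal :=
  ⟨fun z hz g => by rwa [← centerGf_comm hz g, mul_inv_cancel_right]⟩

/-- A level: between a congruence subgroup and `GL₂(Ô)`. -/
def IsLevel (U : Subgroup (Gf R K)) : Prop :=
  ∃ n : R, n ≠ 0 ∧ principalLevel K n ≤ U ∧ U ≤ principalLevel K (1 : R)

/-- `U` times the centre. -/
def levelZ (U : Subgroup (Gf R K)) : Subgroup (Gf R K) := U ⊔ centerGf R K

theorem mem_levelZ {U : Subgroup (Gf R K)} {g : Gf R K} :
    g ∈ levelZ U ↔ ∃ u ∈ U, ∃ z ∈ centerGf R K, u * z = g := by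
  rw [levelZ, ← SetLike.mem_coe, Subgroup.mul_normal]
  exact Set.mem_mul

theorem le_levelZ (U : Subgroup (Gf R K)) : U ≤ levelZ U := le_sup_left

/-- The finite part of the space of automorphic functions of level `U`. -/
abbrev Yf (U : Subgroup (Gf R K)) : Type _ := Gf R K ⧸ levelZ U

/-- The neighbours of `y` for the double coset of `D`. -/
def nbrs {U : Subgroup (Gf R K)} (D : Gf R K) (y : Yf U) : Set (Yf U) :=
  {y' | ∃ g : Gf R K, (g : Yf U) = y ∧ ∃ u ∈ U, ((g * u * D : Gf R K) : Yf U) = y'}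

theorem nbrs_mk {U : Subgroup (Gf R K)} (D g : Gf R K) :
    nbrs D (g : Yf U) = (fun u => ((g * u * D : Gf R K) : Yf U)) '' (U : Set (Gf R K)) := by
  ext y'
  constructor
  · rintro ⟨g', hg', u, hu, rfl⟩
    obtain ⟨u₀, hu₀, z, hz, he⟩ := mem_levelZ.mp (QuotientGroup.eq.mp hg'.symm)
    refine ⟨u₀ * u, mul_mem hu₀ hu, QuotientGroup.eq.mpr ?_⟩
    have : (g * (u₀ * u) * D)⁻¹ * (g' * u * D) = z := by
      rw [show g' = g * (u₀ * z) by rw [he, mul_inv_cancel_left],
        show g * (u₀ * z) * u * D = g * (u₀ * u) * D * z by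
          simp only [mul_assoc]; rw [centerGf_comm hz (u * D), mul_assoc]]
      rw [inv_mul_cancel_left]
    rw [this]
    exact (le_sup_right : centerGf R K ≤ levelZ U) hz
  · rintro ⟨u, hu, rfl⟩
    exact ⟨g, rfl, u, hu, rfl⟩

theorem nbrs_smul {U : Subgroup (Gf R K)} (D h : Gf R K) (y : Yf U) :
    nbrs D (h • y) = (h • ·) '' nbrs D y := by
  induction y using QuotientGroup.induction_on with
  | _ g =>
    rw [show h • (g : Yf U) = ((h * g : Gf R K) : Yf U) from rfl, nbrs_mk, nbrs_mk, Set.image_image]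
    refine Set.image_congr fun u _ => ?_
    show ((h * g * u * D : Gf R K) : Yf U) = ((h * (g * u * D) : Gf R K) : Yf U)
    rw [mul_assoc h g u, mul_assoc h (g * u) D]

theorem finite_nbrs [Ring.HasFiniteQuotients R] {U : Subgroup (Gf R K)} (hU : IsLevel U)
    (D : Gf R K) (y : Yf U) : (nbrs D y).Finite := by
  induction y using QuotientGroup.induction_on with
  | _ g =>
    obtain ⟨n, hn, hnU, hU1⟩ := hU
    obtain ⟨m, hm, hconj⟩ := exists_conj_le D⁻¹ hn
    rw [nbrs_mk]
    have hfin : ((fun u : Gf R K => (u : Gf R K ⧸ principalLevel K m)) '' (U : Set (Gf R K))).Finite :=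
      (finite_image_principalLevel hm).subset (Set.image_mono hU1)
    let Φ : Gf R K ⧸ principalLevel K m → Yf U := Quotient.lift
      (fun u => ((g * u * D : Gf R K) : Yf U)) fun a b hab => by
        refine QuotientGroup.eq.mpr (le_levelZ U (hnU ?_))
        have h := hconj _ (QuotientGroup.leftRel_apply.mp hab)
        rw [inv_inv] at h
        convert! h using 1
        group
    refine (hfin.image Φ).subset ?_
    rintro _ ⟨u, hu, rfl⟩
    exact ⟨_, ⟨u, hu, rfl⟩, rfl⟩

end Fermat.Agent.LT.Adelic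

end
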